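import Mathlib
import Fermat.Prelude.Thm_IsAdicComplete_of_module_finite

/-!
# Completion along a filtered family of ideals

The completion of an algebra along a filtered family of ideals with uniformly bounded cotangent
space is noetherian and complete: the underlying ring of the universal deformation.
-/

noncomputable section

namespace Fermat.Agent.Deform

open IsLocalRing

/-- A complete noetherian local algebra receiving `P`, topologised by the family `𝓘`. -/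
structure FamilyCompletion (𝒪 P : Type) [CommRing 𝒪] [IsLocalRing 𝒪] [CommRing P] [Algebra 𝒪 P]
    (m0 : Ideal P) (𝓘 : Set (Ideal P)) : Type 1 where
  /-- The completion, a complete noetherian local algebra. -/
  R : Type
  [instCommRing : CommRing R]
  [instIsLocalRing : IsLocalRing R]
  [instIsNoetherianRing : IsNoetherianRing R]
  [instIsAdicComplete : IsAdicComplete (IsLocalRing.maximalIdeal R) R]
  [instAlgebra : Algebra 𝒪 R]
  [instIsLocalHom : IsLocalHom (algebraMap 𝒪 R)]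
  residue_surjective : Function.Surjective (IsLocalRing.residue R ∘ algebraMap 𝒪 R)
  /-- The map from `P`, with dense image. -/
  τ : P →ₐ[𝒪] R
  dense : ∀ (n : ℕ) (x : R), ∃ p, x - τ p ∈ maximalIdeal R ^ n
  mem_iff : ∀ p, τ p ∈ maximalIdeal R ↔ p ∈ m0
  le_comap : ∀ I ∈ 𝓘, ∃ n, ∀ p, τ p ∈ maximalIdeal R ^ n → p ∈ I
  exists_le : ∀ n : ℕ, ∃ I ∈ 𝓘, ∀ p ∈ I, τ p ∈ maximalIdeal R ^ n

attribute [instance] FamilyCompletion.instCommRing FamilyCompletion.instIsLocalRing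
  FamilyCompletion.instIsNoetherianRing FamilyCompletion.instIsAdicComplete
  FamilyCompletion.instAlgebra FamilyCompletion.instIsLocalHom

/-- Successive approximation: from `m ≤ N ⊔ m²` one gets `m ≤ N ⊔ mʲ` for every positive `j`. -/
theorem le_sup_pow_of_le_sup_sq {P : Type} [CommRing P] {m N : Ideal P}
    (h : m ≤ N ⊔ m ^ 2) : ∀ j : ℕ, m ≤ N ⊔ m ^ (j + 1)
  | 0 => by simp
  | j + 1 => by
    refine h.trans (sup_le le_sup_left ?_)
    rw [pow_two]
    refine (Ideal.mul_mono_right (le_sup_pow_of_le_sup_sq h j)).trans ?_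
    rw [Ideal.mul_sup]
    exact sup_le_sup Ideal.mul_le_right (by rw [← pow_succ'])

/-- Power series without constant term lie in the ideal of the variables. -/
theorem mem_span_range_X_of_constantCoeff_eq_zero {σ A : Type} [Finite σ] [CommRing A]
    {f : MvPowerSeries σ A} (hf : MvPowerSeries.constantCoeff f = 0) :
    f ∈ Ideal.span (Set.range (MvPowerSeries.X : σ → MvPowerSeries σ A)) := by
  set e := (MvPowerSeries.toAdicCompletionAlgEquiv σ A).toRingEquiv with he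
  have hmap : (Ideal.span (Set.range (MvPowerSeries.X : σ → MvPowerSeries σ A))).map e =
      (MvPolynomial.idealOfVars σ A).map (algebraMap (MvPolynomial σ A)
        (AdicCompletion (MvPolynomial.idealOfVars σ A) (MvPolynomial σ A))) := by
    simp_rw [Ideal.map_span, ← Set.range_comp]
    congr 2; ext1 i
    simp [he, AdicCompletion.algebraMap_apply, ← MvPolynomial.coe_X,
      MvPowerSeries.toAdicCompletion_coe]
  suffices e f ∈ (MvPolynomial.idealOfVars σ A).map (algebraMap (MvPolynomial σ A)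
      (AdicCompletion (MvPolynomial.idealOfVars σ A) (MvPolynomial σ A))) by
    rw [← hmap] at this
    obtain ⟨g, hg, hge⟩ := (Ideal.mem_map_iff_of_surjective _ e.surjective).1 this
    exact e.injective hge ▸ hg
  rw [← AdicCompletion.ker_evalOneₐ_eq_map _ (MvPolynomial.idealOfVars_fg σ A)]
  have hker : (MvPowerSeries.toAdicCompletion σ A f) ∈
      LinearMap.ker (AdicCompletion.eval (MvPolynomial.idealOfVars σ A) (MvPolynomial σ A) 1) := by
    rw [LinearMap.mem_ker, AdicCompletion.eval_apply,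
      MvPowerSeries.toAdicCompletion_apply_eq_mk_truncTotal]
    apply Ideal.Quotient.eq_zero_iff_mem.2
    rw [smul_eq_mul, Ideal.mul_top, MvPolynomial.mem_pow_idealOfVars_iff']
    intro x hx
    have hx0 : x = 0 := (Finsupp.degree_eq_zero_iff x).1 (by omega)
    subst hx0
    rw [MvPowerSeries.coeff_truncTotal _ hx]
    simpa using hf
  rw [← AdicCompletion.pow_smul_top_eq_ker_eval (MvPolynomial.idealOfVars_fg σ A), pow_one,
    Ideal.smul_top_eq_map] at hker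
  rw [AdicCompletion.ker_evalOneₐ_eq_map _ (MvPolynomial.idealOfVars_fg σ A)]
  exact hker

/-- A local algebra with the residue field of a ring with finite residue field has finite residue
field. -/
theorem finite_residueField_of_surjective {𝒪 A : Type} [CommRing 𝒪] [IsLocalRing 𝒪]
    [Finite (ResidueField 𝒪)] [CommRing A] [IsLocalRing A] [Algebra 𝒪 A]
    [IsLocalHom (algebraMap 𝒪 A)] (h : Function.Surjective (residue A ∘ algebraMap 𝒪 A)) :
    Finite (ResidueField A) := by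
  refine Finite.of_surjective (ResidueField.map (algebraMap 𝒪 A) :
    ResidueField 𝒪 → ResidueField A) fun y => ?_
  obtain ⟨c, hc⟩ := h y
  exact ⟨residue _ c, hc⟩

section Construction

variable {𝒪 P : Type} [CommRing 𝒪] [CommRing P] [Algebra 𝒪 P] (m0 : Ideal P)
  {σ : Type} [Finite σ] (v : σ → P) (hv : ∀ i, v i ∈ m0)

include hv in
omit [Finite σ] in
/-- Evaluation maps the ideal of the variables into `m0`. -/
theorem map_idealOfVars_le : (MvPolynomial.idealOfVars σ 𝒪).map (MvPolynomial.aeval v) ≤ m0 := by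
  rw [Ideal.map_span, Ideal.span_le]
  rintro _ ⟨_, ⟨i, rfl⟩, rfl⟩
  simpa using hv i

/-- Truncated evaluation of power series at topologically nilpotent elements. -/
def evalTrunc (n : ℕ) : MvPowerSeries σ 𝒪 →ₐ[𝒪] P ⧸ m0 ^ n :=
  (Ideal.Quotient.liftₐ (MvPolynomial.idealOfVars σ 𝒪 ^ n)
    ((Ideal.Quotient.mkₐ 𝒪 (m0 ^ n)).comp (MvPolynomial.aeval v)) (by
      intro a ha
      have h2 : MvPolynomial.aeval v a ∈ m0 ^ n := by
        have := Ideal.mem_map_of_mem (MvPolynomial.aeval v) ha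
        rw [Ideal.map_pow] at this
        exact Ideal.pow_right_mono (map_idealOfVars_le m0 v hv) n this
      exact Ideal.Quotient.eq_zero_iff_mem.2 h2)).comp
    ((MvPowerSeries.truncTotalAlgHom σ 𝒪 n).restrictScalars 𝒪)

theorem evalTrunc_apply (n : ℕ) (f : MvPowerSeries σ 𝒪) :
    evalTrunc m0 v hv n f = Ideal.Quotient.mk (m0 ^ n)
      (MvPolynomial.aeval v (MvPowerSeries.truncTotal n f)) := by
  rfl

theorem evalTrunc_coe (n : ℕ) (p : MvPolynomial σ 𝒪) :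
    evalTrunc m0 v hv n (p : MvPowerSeries σ 𝒪) =
      Ideal.Quotient.mk (m0 ^ n) (MvPolynomial.aeval v p) := by
  have h : (MvPowerSeries.truncTotalAlgHom σ 𝒪 n) (p : MvPowerSeries σ 𝒪) =
      Ideal.Quotient.mk _ p := (MvPowerSeries.truncTotalAlgHom σ 𝒪 n).commutes p
  simp only [evalTrunc, AlgHom.coe_comp, Function.comp_apply, AlgHom.restrictScalars_apply, h]
  rfl

theorem evalTrunc_factor {m n : ℕ} (h : m ≤ n) (f : MvPowerSeries σ 𝒪) :
    Ideal.Quotient.factor (Ideal.pow_le_pow_right h) (evalTrunc m0 v hv n f) =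
      evalTrunc m0 v hv m f := by
  rw [evalTrunc_apply, evalTrunc_apply, Ideal.Quotient.factor_mk,
    Ideal.Quotient.mk_eq_mk_iff_sub_mem, ← map_sub]
  have hmem := MvPowerSeries.truncTotal_sub_truncTotal_mem_pow_idealOfVars (l := m) h le_rfl f
  have := Ideal.mem_map_of_mem (MvPolynomial.aeval v) hmem
  rw [Ideal.map_pow] at this
  exact Ideal.pow_right_mono (map_idealOfVars_le m0 v hv) m this

end Construction

/-- **Chevalley's lemma.** In a complete noetherian local ring with finite residue field, a filtered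
family of open ideals with zero intersection is cofinal with the powers of the maximal ideal. -/
theorem exists_le_pow_of_iInf_eq_bot {R : Type} [CommRing R] [IsLocalRing R] [IsNoetherianRing R]
    [IsAdicComplete (maximalIdeal R) R] [Finite (ResidueField R)] {ι : Type} [Nonempty ι]
    (K : ι → Ideal R) (hdir : ∀ i j, ∃ l, K l ≤ K i ∧ K l ≤ K j)
    (hopen : ∀ i, ∃ n, maximalIdeal R ^ n ≤ K i) (hzero : ∀ x, (∀ i, x ∈ K i) → x = 0) (n : ℕ) :
    ∃ i, K i ≤ maximalIdeal R ^ n := by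
  classical
  set 𝔪 := maximalIdeal R
  have : Finite (R ⧸ 𝔪) := inferInstanceAs (Finite (ResidueField R))
  have hmin : ∀ n : ℕ, ∃ i, ∀ j, K i ⊔ 𝔪 ^ n ≤ K j ⊔ 𝔪 ^ n := by
    intro n
    have : Finite (R ⧸ 𝔪 ^ n) := Ideal.finite_quotient_pow (IsNoetherian.noetherian _) n
    have : Finite (Ideal (R ⧸ 𝔪 ^ n)) := Finite.of_injective _ SetLike.coe_injective
    let F : ι → Ideal (R ⧸ 𝔪 ^ n) := fun i => (K i).map (Ideal.Quotient.mk _)
    obtain ⟨M, ⟨⟨i, rfl⟩, him⟩⟩ :=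
      (Set.toFinite (Set.range F)).exists_minimal (Set.range_nonempty F)
    refine ⟨i, fun j => ?_⟩
    obtain ⟨l, hli, hlj⟩ := hdir i j
    have h1 : F i ≤ F j := (him ⟨l, rfl⟩ (Ideal.map_mono hli)).trans (Ideal.map_mono hlj)
    have h2 := Ideal.comap_mono (f := Ideal.Quotient.mk (𝔪 ^ n)) h1
    rwa [Ideal.comap_map_of_surjective _ Ideal.Quotient.mk_surjective,
      Ideal.comap_map_of_surjective _ Ideal.Quotient.mk_surjective, ← RingHom.ker_eq_comap_bot,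
      Ideal.mk_ker] at h2
  choose imin himin using hmin
  let T : ℕ → Ideal R := fun n => K (imin n) ⊔ 𝔪 ^ n
  refine ⟨imin n, le_sup_left.trans (fun x hx => ?_ : T n ≤ 𝔪 ^ n)⟩
  have step : ∀ j (t : T (n + j)), ∃ t' : T (n + (j + 1)), t'.1 - t.1 ∈ 𝔪 ^ (n + j) := by
    intro j t
    obtain ⟨a, ha, b, hb, hab⟩ := Submodule.mem_sup.1
      ((himin (n + j) (imin (n + j + 1))).trans (sup_le_sup_right le_sup_left _) t.2 :
        t.1 ∈ T (n + j + 1) ⊔ 𝔪 ^ (n + j))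
    exact ⟨⟨a, ha⟩, by rw [← hab, sub_add_cancel_left]; exact neg_mem hb⟩
  choose nxt hnxt using step
  let seq : ∀ j, T (n + j) := fun j => Nat.rec (⟨x, hx⟩ : T (n + 0)) (fun j t => nxt j t) j
  have hseq : ∀ j, (seq (j + 1)).1 - (seq j).1 ∈ 𝔪 ^ (n + j) := fun j => hnxt j (seq j)
  have hcauchy : ∀ {j l}, j ≤ l → (seq l).1 - (seq j).1 ∈ 𝔪 ^ (n + j) := by
    intro j l hjl
    induction l, hjl using Nat.le_induction with
    | base => simp
    | succ l hl ih =>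
      have := Ideal.add_mem _ (Ideal.pow_le_pow_right (by omega : n + j ≤ n + l) (hseq l)) ih
      simpa [sub_add_sub_cancel] using this
  obtain ⟨y, hy⟩ := IsPrecomplete.prec (I := 𝔪) inferInstance (f := fun j => (seq j).1) (by
    intro j l hjl
    rw [SModEq.sub_mem, smul_eq_mul, Ideal.mul_top, ← neg_sub]
    exact neg_mem (Ideal.pow_le_pow_right (by omega) (hcauchy hjl)))
  have hy' : ∀ j, (seq j).1 - y ∈ 𝔪 ^ j := fun j => by
    have := hy j
    rwa [SModEq.sub_mem, smul_eq_mul, Ideal.mul_top] at this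
  have hy0 : y = 0 := by
    refine hzero y fun i => ?_
    obtain ⟨N, hN⟩ := hopen i
    have h1 : (seq N).1 ∈ K i ⊔ 𝔪 ^ N :=
      ((himin (n + N) i).trans
        (sup_le_sup_left (Ideal.pow_le_pow_right (by omega : N ≤ n + N)) _)) (seq N).2
    have h2 : y ∈ K i ⊔ 𝔪 ^ N := by simpa using Ideal.sub_mem _ h1 (Ideal.mem_sup_right (hy' N))
    exact (sup_le le_rfl hN : K i ⊔ 𝔪 ^ N ≤ K i) h2
  subst hy0
  have h2 := Ideal.sub_mem _ (by simpa using hy' n : (seq n).1 ∈ 𝔪 ^ n) (hcauchy (Nat.zero_le n))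
  simpa [seq] using h2

/-- A completion from a compatible, jointly injective system of surjections onto the quotients. -/
theorem nonempty_of_system {𝒪 P : Type} [CommRing 𝒪] [IsLocalRing 𝒪]
    [Finite (ResidueField 𝒪)] [CommRing P] [Algebra 𝒪 P]
    (m0 : Ideal P) (hm0 : m0 ≠ ⊤)
    (𝓘 : Set (Ideal P)) (hne : 𝓘.Nonempty)
    (hinf : ∀ I ∈ 𝓘, ∀ J ∈ 𝓘, I ⊓ J ∈ 𝓘) (hle : ∀ I ∈ 𝓘, I ≤ m0)
    (N : Ideal P → ℕ) (hN : ∀ I ∈ 𝓘, m0 ^ N I ≤ I)
    (R : Type) [CommRing R] [IsLocalRing R] [IsNoetherianRing R]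
    [IsAdicComplete (maximalIdeal R) R] [Algebra 𝒪 R] [IsLocalHom (algebraMap 𝒪 R)]
    (hrsurj : Function.Surjective (IsLocalRing.residue R ∘ algebraMap 𝒪 R))
    (ψb : ∀ I : 𝓘, R →ₐ[𝒪] P ⧸ I.1) (ψb_surj : ∀ I : 𝓘, Function.Surjective (ψb I))
    (ψb_mono : ∀ (I K : 𝓘) (h : I.1 ≤ K.1) (x), Ideal.Quotient.factor h (ψb I x) = ψb K x)
    (ψb_inj : ∀ x, (∀ I, ψb I x = 0) → x = 0)
    (ψb_max : ∀ I : 𝓘, (maximalIdeal R).map (ψb I) ≤ m0.map (Ideal.Quotient.mk I.1)) :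
    Nonempty (FamilyCompletion 𝒪 P m0 𝓘) := by
  classical
  have : Finite (ResidueField R) := finite_residueField_of_surjective hrsurj
  set 𝔪 := maximalIdeal R with h𝔪
  have hpow : ∀ (I : 𝓘) (x), x ∈ 𝔪 ^ N I.1 → ψb I x = 0 := by
    intro I x hx
    have := Ideal.mem_map_of_mem (ψb I) hx
    rw [Ideal.map_pow] at this
    have h2 := Ideal.pow_right_mono (ψb_max I) (N I.1) this
    rw [← Ideal.map_pow] at h2
    exact Submodule.mem_bot _ |>.1
      ((Ideal.map_mk_eq_bot_of_le (hN I.1 I.2)) ▸ h2)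
  have hker : ∀ n, ∃ I : 𝓘, RingHom.ker (ψb I) ≤ 𝔪 ^ n :=
    have : Nonempty 𝓘 := hne.to_subtype
    exists_le_pow_of_iInf_eq_bot (fun I : 𝓘 => RingHom.ker (ψb I))
      (fun I K => ⟨⟨I.1 ⊓ K.1, hinf _ I.2 _ K.2⟩,
        fun x hx => RingHom.mem_ker.2 (by
          rw [← ψb_mono ⟨I.1 ⊓ K.1, hinf _ I.2 _ K.2⟩ I inf_le_left, RingHom.mem_ker.1 hx,
            map_zero]),
        fun x hx => RingHom.mem_ker.2 (by
          rw [← ψb_mono ⟨I.1 ⊓ K.1, hinf _ I.2 _ K.2⟩ K inf_le_right, RingHom.mem_ker.1 hx,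
            map_zero])⟩)
      (fun I => ⟨N I.1, fun z hz => RingHom.mem_ker.2 (hpow I z hz)⟩)
      (fun x hx => ψb_inj x fun I => RingHom.mem_ker.1 (hx I))
  choose Imin hker using hker
  -- the map from `P`
  let h : ∀ n, P →ₐ[𝒪] R ⧸ 𝔪 ^ n := fun n =>
    (AlgHom.liftOfSurjective (ψb (Imin n)) (ψb_surj _)
      (Ideal.Quotient.mkₐ 𝒪 (𝔪 ^ n))
      (fun _a ha => RingHom.mem_ker.2 (Ideal.Quotient.eq_zero_iff_mem.2 (hker n ha)))).comp
      (Ideal.Quotient.mkₐ 𝒪 (Imin n).1)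
  have h_spec : ∀ n p x, ψb (Imin n) x = Ideal.Quotient.mk _ p →
      h n p = Ideal.Quotient.mk _ x := by
    intro n p x hx
    simp only [h, AlgHom.comp_apply, Ideal.Quotient.mkₐ_eq_mk]
    rw [← hx, AlgHom.liftOfSurjective_apply, Ideal.Quotient.mkₐ_eq_mk]
  have hh : ∀ {m n : ℕ} (hle : m ≤ n),
      (Ideal.Quotient.factorₐ 𝒪 (Ideal.pow_le_pow_right hle)).comp (h n) = h m := by
    intro m n hle
    refine AlgHom.ext fun p => ?_
    let L : 𝓘 := ⟨(Imin m).1 ⊓ (Imin n).1, hinf _ (Imin m).2 _ (Imin n).2⟩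
    obtain ⟨x, hx⟩ := ψb_surj L (Ideal.Quotient.mk _ p)
    have hm : ψb (Imin m) x = Ideal.Quotient.mk _ p := by
      rw [← ψb_mono L _ inf_le_left, hx, Ideal.Quotient.factor_mk]
    have hn : ψb (Imin n) x = Ideal.Quotient.mk _ p := by
      rw [← ψb_mono L _ inf_le_right, hx, Ideal.Quotient.factor_mk]
    rw [AlgHom.comp_apply, h_spec n p x hn, h_spec m p x hm]
    exact Ideal.Quotient.factor_mk (Ideal.pow_le_pow_right hle) _
  let τ := IsAdicComplete.liftAlgHom 𝔪 h hh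
  have hτ : ∀ n p, Ideal.Quotient.mk (𝔪 ^ n) (τ p) = h n p := fun n p =>
    IsAdicComplete.mk_liftAlgHom _ _ hh n p
  have hψτ : ∀ (I : 𝓘) p, ψb I (τ p) = Ideal.Quotient.mk _ p := by
    intro I p
    let n := N I.1
    let L : 𝓘 := ⟨I.1 ⊓ (Imin n).1, hinf _ I.2 _ (Imin n).2⟩
    obtain ⟨x, hx⟩ := ψb_surj L (Ideal.Quotient.mk _ p)
    have h1 : ψb I x = Ideal.Quotient.mk _ p := by
      rw [← ψb_mono L _ inf_le_left, hx, Ideal.Quotient.factor_mk]
    have h2 : ψb (Imin n) x = Ideal.Quotient.mk _ p := by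
      rw [← ψb_mono L _ inf_le_right, hx, Ideal.Quotient.factor_mk]
    have h3 : τ p - x ∈ 𝔪 ^ n := by
      rw [← Ideal.Quotient.mk_eq_mk_iff_sub_mem, hτ, h_spec n p x h2]
    have h4 := hpow I _ h3
    rw [map_sub, sub_eq_zero] at h4
    rw [h4, h1]
  refine ⟨{ R := R, residue_surjective := hrsurj, τ := τ, dense := ?_,
            mem_iff := ?_, le_comap := ?_, exists_le := ?_ }⟩
  · intro n x
    obtain ⟨p, hp⟩ := Ideal.Quotient.mk_surjective (ψb (Imin n) x)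
    exact ⟨p, hker n (by rw [RingHom.mem_ker, map_sub, hψτ, hp, sub_self])⟩
  · intro p
    obtain ⟨I, hI⟩ := hne
    constructor
    · intro hp
      have h1 := ψb_max ⟨I, hI⟩ (Ideal.mem_map_of_mem (ψb ⟨I, hI⟩) hp)
      rw [hψτ, Ideal.mem_quotient_iff_mem (hle I hI)] at h1
      exact h1
    · intro hp
      obtain ⟨c, hc⟩ := hrsurj (residue _ (τ p))
      have hc' : τ p - algebraMap 𝒪 _ c ∈ 𝔪 := (Ideal.Quotient.mk_eq_mk_iff_sub_mem _ _).1 hc.symm
      have h1 := ψb_max ⟨I, hI⟩ (Ideal.mem_map_of_mem (ψb ⟨I, hI⟩) hc')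
      rw [map_sub, hψτ, AlgHom.commutes, ← Ideal.Quotient.mk_algebraMap, ← map_sub,
        Ideal.mem_quotient_iff_mem (hle I hI)] at h1
      have h2 : algebraMap 𝒪 P c ∈ m0 := by simpa using Ideal.sub_mem _ hp h1
      have h3 : c ∈ maximalIdeal 𝒪 := by
        intro hu
        exact hm0 (Ideal.eq_top_of_isUnit_mem _ h2 (hu.map _))
      have h4 : algebraMap 𝒪 R c ∈ 𝔪 :=
        map_nonunit (algebraMap 𝒪 _) c h3
      have h5 := Ideal.add_mem _ hc' h4
      rw [sub_add_cancel] at h5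
      exact h5
  · intro I hI
    refine ⟨N I, fun p hp => Ideal.Quotient.eq_zero_iff_mem.1 ?_⟩
    rw [← hψτ ⟨I, hI⟩]
    exact hpow ⟨I, hI⟩ _ hp
  · intro n
    refine ⟨(Imin n).1, (Imin n).2, fun p hp => hker n ?_⟩
    rw [RingHom.mem_ker, hψτ, Ideal.Quotient.eq_zero_iff_mem.2 hp]

/-- If `m0` is generated by the `v i` modulo `I` and has residue field that of `𝒪`, then polynomials
in the `v i` are dense modulo `I`. -/
theorem exists_sub_aeval_mem {𝒪 P : Type} [CommRing 𝒪] [CommRing P] [Algebra 𝒪 P] {m0 : Ideal P}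
    (hres : ∀ p, ∃ c : 𝒪, p - algebraMap 𝒪 P c ∈ m0) {σ : Type} [Fintype σ] (v : σ → P)
    (hv : ∀ i, v i ∈ m0) {I : Ideal P} (hgen : m0 ≤ I ⊔ Ideal.span (Set.range v)) (j : ℕ) (p : P) :
    ∃ f : MvPolynomial σ 𝒪, p - MvPolynomial.aeval v f ∈ I ⊔ m0 ^ j := by
  induction j generalizing p with
  | zero => exact ⟨0, by simp⟩
  | succ j ih =>
    obtain ⟨c, hc⟩ := hres p
    obtain ⟨a, ha, b, hb, hab⟩ := Submodule.mem_sup.1 (hgen hc)
    obtain ⟨q, hq⟩ := Ideal.mem_span_range_iff_exists_fun.1 hb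
    choose f hf using fun i => ih (q i)
    refine ⟨MvPolynomial.C c + ∑ i, f i * MvPolynomial.X i, ?_⟩
    have heq : p - MvPolynomial.aeval v (MvPolynomial.C c + ∑ i, f i * MvPolynomial.X i) =
        a + ∑ i, (q i - MvPolynomial.aeval v (f i)) * v i := by
      simp only [map_add, MvPolynomial.aeval_C, map_sum, map_mul, MvPolynomial.aeval_X,
        sub_mul, Finset.sum_sub_distrib, hq]
      linear_combination -hab
    rw [heq]
    refine Ideal.add_mem _ (Ideal.mem_sup_left ha) (Ideal.sum_mem _ fun i _ => ?_)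
    have := Ideal.mul_mem_mul (hf i) (hv i)
    rw [Ideal.sup_mul, ← pow_succ] at this
    exact (sup_le_sup_right Ideal.mul_le_left _ : I * m0 ⊔ m0 ^ (j + 1) ≤ _) this

/-- The maximal ideal of a quotient of a power series ring in which the constants of the maximal
ideal lie in the ideal of the variables. -/
theorem maximalIdeal_quotient_eq {𝒪 : Type} [CommRing 𝒪] [IsLocalRing 𝒪] {σ : Type} [Finite σ]
    (J : Ideal (MvPowerSeries σ 𝒪)) [IsLocalRing (MvPowerSeries σ 𝒪 ⧸ J)]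
    (hC : ∀ c ∈ maximalIdeal 𝒪, Ideal.Quotient.mk J (MvPowerSeries.C c) ∈
      (Ideal.span (Set.range (MvPowerSeries.X : σ → _))).map (Ideal.Quotient.mk J)) :
    maximalIdeal (MvPowerSeries σ 𝒪 ⧸ J) =
      (Ideal.span (Set.range (MvPowerSeries.X : σ → _))).map (Ideal.Quotient.mk J) := by
  refine le_antisymm ?_ ?_
  · intro x hx
    obtain ⟨f, rfl⟩ := Ideal.Quotient.mk_surjective x
    have hc : MvPowerSeries.constantCoeff f ∈ maximalIdeal 𝒪 := fun hu =>
      hx ((MvPowerSeries.isUnit_iff_constantCoeff.2 hu).map _)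
    have h2 : f - MvPowerSeries.C (MvPowerSeries.constantCoeff f) ∈
        Ideal.span (Set.range (MvPowerSeries.X : σ → _)) :=
      mem_span_range_X_of_constantCoeff_eq_zero (by simp)
    simpa using Ideal.add_mem _ (Ideal.mem_map_of_mem (Ideal.Quotient.mk J) h2) (hC _ hc)
  · refine Ideal.map_le_of_le_comap ?_
    rw [Ideal.span_le]
    rintro _ ⟨i, rfl⟩
    show Ideal.Quotient.mk J _ ∈ maximalIdeal _
    rw [IsLocalRing.mem_maximalIdeal]
    intro hu
    have : IsLocalHom (Ideal.Quotient.mk J) :=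
      IsLocalHom.of_surjective _ Ideal.Quotient.mk_surjective
    have := MvPowerSeries.isUnit_iff_constantCoeff.1 (IsUnit.of_map (Ideal.Quotient.mk J) _ hu)
    simp at this

/-- Evaluation at the `v i` gives a compatible system of surjections from the power series ring
onto the quotients of the family. -/
theorem exists_evalSystem {𝒪 P : Type} [CommRing 𝒪] [CommRing P] [Algebra 𝒪 P] {m0 : Ideal P}
    (hres : ∀ p, ∃ c : 𝒪, p - algebraMap 𝒪 P c ∈ m0) {σ : Type} [Fintype σ] (v : σ → P)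
    (hv : ∀ i, v i ∈ m0) {𝓘 : Set (Ideal P)} {N : Ideal P → ℕ}
    (hN : ∀ I ∈ 𝓘, m0 ^ N I ≤ I) (hgen : ∀ I ∈ 𝓘, m0 ≤ I ⊔ Ideal.span (Set.range v)) :
    ∃ ψ : ∀ I : 𝓘, MvPowerSeries σ 𝒪 →ₐ[𝒪] P ⧸ I.1,
      (∀ I i, ψ I (MvPowerSeries.X i) = Ideal.Quotient.mk I.1 (v i)) ∧
      (∀ I, Function.Surjective (ψ I)) ∧
      ∀ (I J : 𝓘) (h : I.1 ≤ J.1) (f), Ideal.Quotient.factor h (ψ I f) = ψ J f := by
  classical
  let ψ : ∀ I : 𝓘, MvPowerSeries σ 𝒪 →ₐ[𝒪] P ⧸ I.1 := fun I =>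
    (Ideal.Quotient.factorₐ 𝒪 (hN I.1 I.2)).comp (evalTrunc m0 v hv (N I.1))
  have ψ_apply : ∀ (I : 𝓘) (n : ℕ), m0 ^ n ≤ I.1 → ∀ f,
      ψ I f = Ideal.Quotient.mk I.1 (MvPolynomial.aeval v (MvPowerSeries.truncTotal n f)) := by
    intro I n hn f
    have e1 := evalTrunc_factor m0 v hv (le_max_left (N I.1) n) f
    have e2 := evalTrunc_factor m0 v hv (le_max_right (N I.1) n) f
    have hmax : m0 ^ max (N I.1) n ≤ I.1 :=
      (Ideal.pow_le_pow_right (le_max_right _ _)).trans hn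
    calc ψ I f = Ideal.Quotient.factor (hN I.1 I.2) (evalTrunc m0 v hv (N I.1) f) := rfl
      _ = Ideal.Quotient.factor hmax (evalTrunc m0 v hv (max (N I.1) n) f) := by
        rw [← e1, Ideal.Quotient.factor_comp_apply]
      _ = Ideal.Quotient.factor hn (evalTrunc m0 v hv n f) := by
        rw [← e2, Ideal.Quotient.factor_comp_apply]
      _ = _ := by rw [evalTrunc_apply, Ideal.Quotient.factor_mk]
  have ψ_coe : ∀ (I : 𝓘) (p : MvPolynomial σ 𝒪),
      ψ I (p : MvPowerSeries σ 𝒪) = Ideal.Quotient.mk I.1 (MvPolynomial.aeval v p) := by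
    intro I p
    show Ideal.Quotient.factor (hN I.1 I.2) (evalTrunc m0 v hv (N I.1) _) = _
    rw [evalTrunc_coe, Ideal.Quotient.factor_mk]
  have ψ_X : ∀ (I : 𝓘) (i : σ), ψ I (MvPowerSeries.X i) = Ideal.Quotient.mk I.1 (v i) := by
    intro I i
    simpa using ψ_coe I (MvPolynomial.X i)
  have ψ_surj : ∀ I : 𝓘, Function.Surjective (ψ I) := by
    intro I y
    obtain ⟨p, rfl⟩ := Ideal.Quotient.mk_surjective y
    obtain ⟨f, hf⟩ := exists_sub_aeval_mem hres v hv (hgen I.1 I.2) (N I.1) p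
    refine ⟨f, ?_⟩
    rw [ψ_coe, eq_comm, Ideal.Quotient.mk_eq_mk_iff_sub_mem]
    exact sup_le le_rfl (hN I.1 I.2) hf
  have ψ_mono : ∀ (I J : 𝓘) (h : I.1 ≤ J.1) (f), Ideal.Quotient.factor h (ψ I f) = ψ J f := by
    intro I J h f
    rw [ψ_apply I _ (hN I.1 I.2), ψ_apply J _ ((hN I.1 I.2).trans h), Ideal.Quotient.factor_mk]
  exact ⟨ψ, ψ_X, ψ_surj, ψ_mono⟩

/-- The completion along a filtered family with uniformly bounded cotangent space exists. -/
theorem exists_familyCompletion {𝒪 P : Type} [CommRing 𝒪] [IsLocalRing 𝒪] [IsNoetherianRing 𝒪]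
    [Finite (ResidueField 𝒪)] [CommRing P] [Algebra 𝒪 P]
    (m0 : Ideal P) (hm0 : m0 ≠ ⊤)
    (h𝒪 : (maximalIdeal 𝒪).map (algebraMap 𝒪 P) ≤ m0)
    (hres : ∀ p, ∃ c : 𝒪, p - algebraMap 𝒪 P c ∈ m0)
    (𝓘 : Set (Ideal P)) (hne : 𝓘.Nonempty)
    (hinf : ∀ I ∈ 𝓘, ∀ J ∈ 𝓘, I ⊓ J ∈ 𝓘)
    (hle : ∀ I ∈ 𝓘, I ≤ m0)
    (hnil : ∀ I ∈ 𝓘, ∃ n, m0 ^ n ≤ I)
    (S : Finset P) (hS : ∀ s ∈ S, s ∈ m0)
    (hgen : ∀ I ∈ 𝓘, m0 ≤ I ⊔ Ideal.span (S : Set P) ⊔
      (maximalIdeal 𝒪).map (algebraMap 𝒪 P) ⊔ m0 ^ 2) :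
    Nonempty (FamilyCompletion 𝒪 P m0 𝓘) := by
  classical
  obtain ⟨G0, hG0⟩ : (maximalIdeal 𝒪).FG := IsNoetherian.noetherian _
  let v : S ⊕ G0 → P := Sum.elim (fun s => s.1) (fun g => algebraMap 𝒪 P g.1)
  have hG0m : ∀ g ∈ G0, g ∈ maximalIdeal 𝒪 := fun g hg => hG0 ▸ Ideal.subset_span hg
  have hv : ∀ i, v i ∈ m0 := by
    rintro (s | g)
    · exact hS _ s.2
    · exact h𝒪 (Ideal.mem_map_of_mem _ (hG0m _ g.2))
  have hgen' : ∀ I ∈ 𝓘, m0 ≤ I ⊔ Ideal.span (Set.range v) := by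
    intro I hI
    have h1 : m0 ≤ (I ⊔ Ideal.span (Set.range v)) ⊔ m0 ^ 2 := by
      refine (hgen I hI).trans (sup_le_sup_right (sup_le (sup_le_sup_left ?_ _) ?_) _)
      · rw [Ideal.span_le]
        exact fun s hs => Ideal.subset_span ⟨Sum.inl ⟨s, hs⟩, rfl⟩
      · refine le_trans ?_ le_sup_right
        rw [← hG0, Ideal.map_span, Ideal.span_le]
        rintro _ ⟨g, hg, rfl⟩
        exact Ideal.subset_span ⟨Sum.inr ⟨g, hg⟩, rfl⟩
    obtain ⟨n, hn⟩ := hnil I hI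
    refine (le_sup_pow_of_le_sup_sq h1 n).trans (sup_le le_rfl ?_)
    exact ((Ideal.pow_le_pow_right n.le_succ).trans hn).trans le_sup_left
  choose! N hN using hnil
  obtain ⟨ψ, ψ_X, ψ_surj, ψ_mono⟩ := exists_evalSystem hres v hv hN hgen'
  let J : Ideal (MvPowerSeries (S ⊕ G0) 𝒪) := ⨅ I : 𝓘, RingHom.ker (ψ I)
  have : Nontrivial (MvPowerSeries (S ⊕ G0) 𝒪 ⧸ J) := by
    refine Ideal.Quotient.nontrivial_iff.2 fun hJ => ?_
    obtain ⟨I, hI⟩ := hne
    have h1 : (1 : MvPowerSeries (S ⊕ G0) 𝒪) ∈ RingHom.ker (ψ ⟨I, hI⟩) :=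
      (iInf_le (fun I : 𝓘 => RingHom.ker (ψ I)) ⟨I, hI⟩ : J ≤ _) ((Ideal.eq_top_iff_one J).1 hJ)
    rw [RingHom.mem_ker, map_one] at h1
    refine hm0 ((Ideal.eq_top_iff_one _).2 (hle I hI ?_))
    exact Ideal.Quotient.eq_zero_iff_mem.1 (by rw [map_one]; exact h1)
  have : IsLocalRing (MvPowerSeries (S ⊕ G0) 𝒪 ⧸ J) :=
    IsLocalRing.of_surjective' _ Ideal.Quotient.mk_surjective
  have hmax : maximalIdeal (MvPowerSeries (S ⊕ G0) 𝒪 ⧸ J) =
      (Ideal.span (Set.range (MvPowerSeries.X : S ⊕ G0 → _))).map (Ideal.Quotient.mk J) := by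
    refine maximalIdeal_quotient_eq J fun c hc => ?_
    rw [← hG0] at hc
    refine Submodule.span_induction (fun g hg => ?_) (by simp)
      (fun a b _ _ ha hb => ?_) (fun r a _ ha => ?_) hc
    · have hEq : Ideal.Quotient.mk J (MvPowerSeries.C g) =
          Ideal.Quotient.mk J (MvPowerSeries.X (Sum.inr ⟨g, hg⟩)) := by
        rw [Ideal.Quotient.mk_eq_mk_iff_sub_mem, Submodule.mem_iInf]
        intro I
        rw [RingHom.mem_ker, map_sub, ψ_X, MvPowerSeries.c_eq_algebraMap, AlgHom.commutes]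
        exact sub_eq_zero.2 rfl
      rw [hEq]
      exact Ideal.mem_map_of_mem _ (Ideal.subset_span ⟨_, rfl⟩)
    · simpa using Ideal.add_mem _ ha hb
    · simpa using Ideal.mul_mem_left _ _ ha
  have : IsNoetherianRing (MvPowerSeries (S ⊕ G0) 𝒪 ⧸ J) :=
    isNoetherianRing_of_surjective _ _ _ Ideal.Quotient.mk_surjective
  have : IsAdicComplete (maximalIdeal (MvPowerSeries (S ⊕ G0) 𝒪 ⧸ J))
      (MvPowerSeries (S ⊕ G0) 𝒪 ⧸ J) := by
    have h1 := IsAdicComplete.of_module_finite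
      (Ideal.span (Set.range (MvPowerSeries.X : S ⊕ G0 → MvPowerSeries (S ⊕ G0) 𝒪)))
      (MvPowerSeries (S ⊕ G0) 𝒪 ⧸ J)
    rw [← IsAdicComplete.map_algebraMap_iff (S := MvPowerSeries (S ⊕ G0) 𝒪 ⧸ J)] at h1
    rw [hmax]
    exact h1
  let ψb : ∀ I : 𝓘, MvPowerSeries (S ⊕ G0) 𝒪 ⧸ J →ₐ[𝒪] P ⧸ I.1 := fun I =>
    Ideal.Quotient.liftₐ J (ψ I) fun a ha => RingHom.mem_ker.1 ((Submodule.mem_iInf _).1 ha I)
  have ψb_mk : ∀ (I : 𝓘) f, ψb I (Ideal.Quotient.mk J f) = ψ I f := fun I f => rfl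
  have ψb_surj : ∀ I : 𝓘, Function.Surjective (ψb I) := fun I y => by
    obtain ⟨f, rfl⟩ := ψ_surj I y
    exact ⟨Ideal.Quotient.mk J f, rfl⟩
  have ψb_mono : ∀ (I K : 𝓘) (h : I.1 ≤ K.1) (x),
      Ideal.Quotient.factor h (ψb I x) = ψb K x := by
    intro I K h x
    obtain ⟨f, rfl⟩ := Ideal.Quotient.mk_surjective x
    exact ψ_mono I K h f
  have ψb_inj : ∀ x, (∀ I, ψb I x = 0) → x = 0 := by
    intro x hx
    obtain ⟨f, rfl⟩ := Ideal.Quotient.mk_surjective x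
    rw [Ideal.Quotient.eq_zero_iff_mem, Submodule.mem_iInf]
    exact fun I => RingHom.mem_ker.2 (hx I)
  have ψb_max : ∀ I : 𝓘, (maximalIdeal (MvPowerSeries (S ⊕ G0) 𝒪 ⧸ J)).map (ψb I) ≤
      m0.map (Ideal.Quotient.mk I.1) := by
    intro I
    rw [hmax, Ideal.map_span, Ideal.map_span, Ideal.span_le]
    rintro _ ⟨_, ⟨_, ⟨i, rfl⟩, rfl⟩, rfl⟩
    show ψb I _ ∈ _
    rw [ψb_mk, ψ_X]
    exact Ideal.mem_map_of_mem _ (hv i)
  have : IsLocalHom (algebraMap 𝒪 (MvPowerSeries (S ⊕ G0) 𝒪 ⧸ J)) := by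
    constructor
    intro c hc
    by_contra h
    obtain ⟨I, hI⟩ := hne
    have h1 := hc.map (ψb ⟨I, hI⟩)
    rw [AlgHom.commutes, ← Ideal.Quotient.mk_algebraMap] at h1
    have h2 : algebraMap 𝒪 P c ∈ m0 := h𝒪 (Ideal.mem_map_of_mem _ h)
    refine hm0 ((Ideal.eq_top_iff_one _).2 ?_)
    have h3 := h1.map (Ideal.Quotient.factor (hle I hI))
    rw [Ideal.Quotient.factor_mk, Ideal.Quotient.eq_zero_iff_mem.2 h2, isUnit_zero_iff] at h3
    exact Ideal.Quotient.eq_zero_iff_mem.1 (by rw [map_one]; exact h3.symm)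
  have hrsurj : Function.Surjective
      (IsLocalRing.residue (MvPowerSeries (S ⊕ G0) 𝒪 ⧸ J) ∘ algebraMap 𝒪 _) := by
    intro y
    obtain ⟨x, rfl⟩ := IsLocalRing.residue_surjective y
    obtain ⟨f, rfl⟩ := Ideal.Quotient.mk_surjective x
    refine ⟨MvPowerSeries.constantCoeff f, ?_⟩
    show Ideal.Quotient.mk _ _ = Ideal.Quotient.mk _ _
    rw [Ideal.Quotient.mk_eq_mk_iff_sub_mem, hmax, IsScalarTower.algebraMap_apply 𝒪
      (MvPowerSeries (S ⊕ G0) 𝒪) (MvPowerSeries (S ⊕ G0) 𝒪 ⧸ J), Ideal.Quotient.algebraMap_eq,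
      ← map_sub, ← MvPowerSeries.c_eq_algebraMap]
    exact Ideal.mem_map_of_mem _ (mem_span_range_X_of_constantCoeff_eq_zero (by simp))
  exact nonempty_of_system m0 hm0 𝓘 hne hinf hle N hN (MvPowerSeries (S ⊕ G0) 𝒪 ⧸ J) hrsurj
    ψb ψb_surj ψb_mono ψb_inj ψb_max

end Fermat.Agent.Deform
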