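import Mathlib
import Fermat.Prelude.Def_GaloisRep_Residual

/-!
# Burnside's theorem in rank two

An absolutely irreducible representation spans all matrices; this gives the normalised matrix form
of deformations.
-/

noncomputable section

open scoped TensorProduct

namespace Fermat.Agent.Deform

/-- Burnside: over an algebraically closed field the operators of an irreducible finite-dimensional
representation span all endomorphisms. -/
theorem span_range_eq_top_of_irreducible {K V G : Type} [Field K] [IsAlgClosed K] [AddCommGroup V]
    [Module K V] [Module.Finite K V] [Nontrivial V] [Monoid G] (ρ : G →* Module.End K V)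
    (h : ∀ W : Submodule K V, (∀ g, ∀ x ∈ W, ρ g x ∈ W) → W = ⊥ ∨ W = ⊤) :
    Submodule.span K (Set.range ρ) = ⊤ := by
  set T : Subalgebra K (Module.End K V) := Algebra.adjoin K (Set.range ρ) with hT
  have hmem : ∀ g, ρ g ∈ T := fun g => Algebra.subset_adjoin ⟨g, rfl⟩
  have : IsSimpleModule T V := by
    refine { eq_bot_or_eq_top := fun W => ?_ }
    rcases h (W.restrictScalars K) (fun g x hx => W.smul_mem (⟨ρ g, hmem g⟩ : T) hx) with hW | hW
    · exact Or.inl ((Submodule.restrictScalars_eq_bot_iff K T V).1 hW)
    · exact Or.inr ((Submodule.restrictScalars_eq_top_iff K T V).1 hW)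
  have schur : ∀ f : Module.End T V, ∃ c : K, ∀ v, f v = c • v := by
    intro f
    obtain ⟨c, hc⟩ := Module.End.exists_eigenvalue (f.restrictScalars K : Module.End K V)
    let W : Submodule T V :=
      { carrier := {v | f v = c • v}
        zero_mem' := by simp
        add_mem' := fun {a b} (ha : f a = c • a) (hb : f b = c • b) => by
          show f (a + b) = c • (a + b)
          rw [map_add, ha, hb, smul_add]
        smul_mem' := fun t v (hv : f v = c • v) => by
          show f (t • v) = c • (t • v)
          rw [map_smul, hv, smul_comm] }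
    rcases eq_bot_or_eq_top W with hW | hW
    · obtain ⟨v, hv⟩ := hc.exists_hasEigenvector
      have : v ∈ W := hv.apply_eq_smul
      rw [hW, Submodule.mem_bot] at this
      exact absurd this hv.2
    · exact ⟨c, fun v => (hW ▸ Submodule.mem_top : v ∈ W)⟩
  have hTtop : ∀ g : Module.End K V, g ∈ T := by
    intro g
    let g' : Module.End (Module.End T V) V :=
      { toFun := g
        map_add' := map_add g
        map_smul' := fun f v => by
          obtain ⟨c, hc⟩ := schur f
          show g (f v) = f (g v)
          rw [hc, hc, map_smul] }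
    obtain ⟨s, hs⟩ := Module.Finite.fg_top (R := K) (M := V)
    obtain ⟨t, ht⟩ := jacobson_density g' s
    have : g = (t : Module.End K V) := LinearMap.ext_on hs fun v hv => ht v hv
    exact this ▸ t.2
  have hspan : Subalgebra.toSubmodule T = Submodule.span K (Set.range ρ) := by
    rw [hT, Algebra.adjoin_eq_span, ← MonoidHom.coe_mrange, Submonoid.closure_eq]
  rw [← hspan, Submodule.eq_top_iff']
  exact fun g => hTtop g

/-- An absolutely irreducible residual representation spans all matrices. -/
theorem span_toMatrix_eq_top {k : Type} [Field k] (ρbar : ResidualGaloisRep k)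
    (habs : ρbar.IsAbsolutelyIrreducible) (b : Module.Basis (Fin 2) k ρbar.V) :
    Submodule.span k (Set.range fun g => LinearMap.toMatrix b b (ρbar.ρ g)) = ⊤ := by
  classical
  let K := AlgebraicClosure k
  let bK := Algebra.TensorProduct.basis K b
  have : Nontrivial (ρbar.baseChange K).V :=
    Module.nontrivial_of_finrank_pos (R := K) (by rw [(ρbar.baseChange K).finrank_eq]; norm_num)
  have htop := span_range_eq_top_of_irreducible (ρbar.baseChange K).ρ habs
  by_contra hne
  obtain ⟨φ, hφ0, hφ⟩ := Submodule.exists_le_ker_of_lt_top _ (lt_top_iff_ne_top.2 hne)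
  let ψ : Matrix (Fin 2) (Fin 2) K →ₗ[K] K :=
    ∑ i, ∑ j, algebraMap k K (φ (Matrix.single i j 1)) • Matrix.entryLinearMap K K i j
  have hψ : ∀ M : Matrix (Fin 2) (Fin 2) k, ψ (M.map (algebraMap k K)) = algebraMap k K (φ M) := by
    intro M
    conv_rhs => rw [Matrix.matrix_eq_sum_single M]
    simp only [ψ, map_sum, LinearMap.sum_apply, LinearMap.smul_apply,
      Matrix.entryLinearMap_apply, Matrix.map_apply]
    refine Finset.sum_congr rfl fun i _ => Finset.sum_congr rfl fun j _ => ?_
    have : Matrix.single i j (M i j) = M i j • Matrix.single i j (1 : k) := by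
      rw [Matrix.smul_single, smul_eq_mul, mul_one]
    rw [this, map_smul, smul_eq_mul, smul_eq_mul]
    exact (mul_comm _ _).trans (map_mul (algebraMap k K) _ _).symm
  let Ψ : Module.End K (ρbar.baseChange K).V →ₗ[K] K :=
    ψ ∘ₗ (LinearMap.toMatrix bK bK).toLinearMap
  have hΨ : Ψ = 0 := by
    refine LinearMap.ext_on htop ?_
    rintro _ ⟨g, rfl⟩
    show ψ (LinearMap.toMatrix bK bK ((ρbar.ρ g).baseChange K)) = 0
    rw [LinearMap.toMatrix_baseChange, hψ,
      LinearMap.mem_ker.1 (hφ (Submodule.subset_span ⟨g, rfl⟩)), map_zero]
  refine hφ0 (LinearMap.ext fun M => (algebraMap k K).injective ?_)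
  rw [LinearMap.zero_apply, map_zero, ← hψ]
  have := congr($hΨ ((LinearMap.toMatrix bK bK).symm (M.map (algebraMap k K))))
  simpa [Ψ] using this

end Fermat.Agent.Deform
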