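import Mathlib
import Fermat.Prelude.Def_GaloisRep_Adic

/-!
# Galois representations given by matrices

Passage between adic Galois representations and continuous matrix valued maps, compatibly with
base change and reduction.
-/

noncomputable section

open scoped TensorProduct

namespace Fermat.Agent.Deform

open IsLocalRing Matrix

/-- The absolute Galois group of `ℚ`. -/
abbrev GQ : Type := AlgebraicClosure ℚ ≃ₐ[ℚ] AlgebraicClosure ℚ

/-- Two by two matrices. -/
abbrev M2 (A : Type) : Type := Matrix (Fin 2) (Fin 2) A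

section

variable {A : Type} [CommRing A] [IsLocalRing A]

/-- Adic continuity of a matrix representation. -/
def IsContMat (M : GQ →* M2 A) : Prop :=
  ∀ n : ℕ, ∃ L : IntermediateField ℚ (AlgebraicClosure ℚ), FiniteDimensional ℚ L ∧
    ∀ σ : GQ, (∀ x ∈ L, σ x = x) → ∀ i j, M σ i j - (1 : M2 A) i j ∈ maximalIdeal A ^ n

/-- The representation on `A²` given by matrices. -/
def ofMatrix (M : GQ →* M2 A) (hM : IsContMat M) : GaloisRepAdic A where
  V := Fin 2 → A
  finrank_eq := by simp
  ρ :=
    (Matrix.toLinAlgEquiv' :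
      M2 A ≃ₐ[A] Module.End A (Fin 2 → A)).toAlgHom.toRingHom.toMonoidHom.comp M
  isAdicContinuous := by
    intro n
    obtain ⟨L, hL, h⟩ := hM n
    refine ⟨L, hL, fun σ hσ v => ?_⟩
    show Matrix.toLin' (M σ) v - v ∈ _
    have he : Matrix.toLin' (M σ) v - v = (M σ - 1).mulVec v := by
      rw [Matrix.toLin'_apply, Matrix.sub_mulVec, Matrix.one_mulVec]
    rw [he, pi_eq_sum_univ' ((M σ - 1).mulVec v)]
    refine Submodule.sum_mem _ fun i _ => Submodule.smul_mem_smul ?_ Submodule.mem_top
    rw [Matrix.mulVec, dotProduct]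
    exact Ideal.sum_mem _ fun j _ => Ideal.mul_mem_right _ _ (h σ hσ i j)

/-- The matrices of a representation in a basis. -/
def matOf (ρ : GaloisRepAdic A) (b : Module.Basis (Fin 2) A ρ.V) : GQ →* M2 A :=
  (LinearMap.toMatrixAlgEquiv b).toAlgHom.toRingHom.toMonoidHom.comp ρ.ρ

theorem matOf_apply (ρ : GaloisRepAdic A) (b : Module.Basis (Fin 2) A ρ.V) (g : GQ) :
    matOf ρ b g = LinearMap.toMatrix b b (ρ.ρ g) := rfl

/-- The matrices of a representation are continuous. -/
theorem isContMat_matOf (ρ : GaloisRepAdic A) (b : Module.Basis (Fin 2) A ρ.V) :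
    IsContMat (matOf ρ b) := by
  intro n
  obtain ⟨L, hL, h⟩ := ρ.isAdicContinuous n
  refine ⟨L, hL, fun σ hσ i j => ?_⟩
  have he : matOf ρ b σ i j - (1 : M2 A) i j = b.repr (ρ.ρ σ (b j) - b j) i := by
    rw [matOf_apply, LinearMap.toMatrix_apply, map_sub, Finsupp.sub_apply, b.repr_self,
      Matrix.one_apply, Finsupp.single_apply]
    simp [eq_comm]
  rw [he]
  have h1 := Submodule.mem_map_of_mem (f := b.coord i) (h σ hσ (b j))
  rw [Submodule.map_smul''] at h1
  exact Submodule.smul_le.2 (fun r hr m _ => Ideal.mul_mem_right _ _ hr) h1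

/-- A representation is equivalent to the matrix representation of any basis. -/
theorem isEquiv_ofMatrix (ρ : GaloisRepAdic A) (b : Module.Basis (Fin 2) A ρ.V) (M : GQ →* M2 A)
    (hM : IsContMat M) (h : ∀ g, matOf ρ b g = M g) : ρ.IsEquiv (ofMatrix M hM) :=
  ⟨{ toLinearEquiv := b.equivFun
     map_apply := fun σ x => by
       show b.equivFun (ρ.ρ σ x) = Matrix.toLin' (M σ) (b.equivFun x)
       rw [← h, matOf_apply, Matrix.toLin'_apply]
       exact (LinearMap.toMatrix_mulVec_repr b b (ρ.ρ σ) x).symm }⟩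

/-- The standard basis of a matrix representation. -/
def stdBasis (M : GQ →* M2 A) (hM : IsContMat M) : Module.Basis (Fin 2) A (ofMatrix M hM).V :=
  Pi.basisFun A (Fin 2)

theorem matOf_stdBasis (M : GQ →* M2 A) (hM : IsContMat M) (g : GQ) :
    matOf (ofMatrix M hM) (stdBasis M hM) g = M g := by
  show LinearMap.toMatrix (Pi.basisFun A (Fin 2)) (Pi.basisFun A (Fin 2)) (Matrix.toLin' (M g)) =
    M g
  rw [LinearMap.toMatrix_eq_toMatrix', LinearMap.toMatrix'_toLin']

/-- Equivalent representations have intertwined matrices. -/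
theorem exists_intertwine {ρ₁ ρ₂ : GaloisRepAdic A} (h : ρ₁.IsEquiv ρ₂)
    (b₁ : Module.Basis (Fin 2) A ρ₁.V) (b₂ : Module.Basis (Fin 2) A ρ₂.V) :
    ∃ P : (M2 A)ˣ, ∀ g, (P : M2 A) * matOf ρ₁ b₁ g = matOf ρ₂ b₂ g * P := by
  obtain ⟨e⟩ := h
  refine ⟨⟨LinearMap.toMatrix b₁ b₂ e.toLinearEquiv.toLinearMap,
    LinearMap.toMatrix b₂ b₁ e.toLinearEquiv.symm.toLinearMap, ?_, ?_⟩, fun g => ?_⟩
  · rw [← LinearMap.toMatrix_comp]
    simp
  · rw [← LinearMap.toMatrix_comp]
    simp
  · show LinearMap.toMatrix b₁ b₂ _ * LinearMap.toMatrix b₁ b₁ _ =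
      LinearMap.toMatrix b₂ b₂ _ * LinearMap.toMatrix b₁ b₂ _
    rw [← LinearMap.toMatrix_comp, ← LinearMap.toMatrix_comp]
    congr 1
    exact LinearMap.ext (e.map_apply g)

/-- The automorphism of `A²` given by an invertible matrix. -/
def unitEquiv (P : (M2 A)ˣ) : (Fin 2 → A) ≃ₗ[A] (Fin 2 → A) where
  toLinearMap := Matrix.toLin' (P : M2 A)
  invFun v := (↑P⁻¹ : M2 A).mulVec v
  left_inv v := by
    show (↑P⁻¹ : M2 A).mulVec ((P : M2 A).mulVec v) = v
    rw [Matrix.mulVec_mulVec, Units.inv_mul, Matrix.one_mulVec]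
  right_inv v := by
    show (P : M2 A).mulVec ((↑P⁻¹ : M2 A).mulVec v) = v
    rw [Matrix.mulVec_mulVec, Units.mul_inv, Matrix.one_mulVec]

/-- Intertwined matrices give equivalent representations. -/
theorem isEquiv_of_intertwine {M M' : GQ →* M2 A} (hM : IsContMat M) (hM' : IsContMat M')
    (P : (M2 A)ˣ) (h : ∀ g, (P : M2 A) * M g = M' g * P) :
    (ofMatrix M hM).IsEquiv (ofMatrix M' hM') :=
  ⟨{ toLinearEquiv := unitEquiv P
     map_apply := fun σ (x : Fin 2 → A) => by
       show (P : M2 A).mulVec ((M σ).mulVec x) = (M' σ).mulVec ((P : M2 A).mulVec x)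
       rw [Matrix.mulVec_mulVec, Matrix.mulVec_mulVec, h] }⟩

end

section BaseChange

variable {A B : Type} [CommRing A] [IsLocalRing A] [CommRing B] [IsLocalRing B]

/-- The monoid map on matrices induced by a ring map. -/
def mapMat (φ : A →+* B) (M : GQ →* M2 A) : GQ →* M2 B :=
  φ.mapMatrix.toMonoidHom.comp M

omit [IsLocalRing A] [IsLocalRing B] in
@[simp]
theorem mapMat_apply (φ : A →+* B) (M : GQ →* M2 A) (g : GQ) : mapMat φ M g = (M g).map φ := rfl

/-- Continuity passes through local maps. -/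
theorem isContMat_mapMat (φ : A →+* B) (hφ : IsLocalHom φ) {M : GQ →* M2 A} (hM : IsContMat M) :
    IsContMat (mapMat φ M) := by
  intro n
  obtain ⟨L, hL, h⟩ := hM n
  refine ⟨L, hL, fun σ hσ i j => ?_⟩
  have h1 := Ideal.mem_map_of_mem φ (h σ hσ i j)
  rw [Ideal.map_pow] at h1
  have h2 := Ideal.pow_right_mono (((IsLocalRing.local_hom_TFAE φ).out 0 2).mp hφ) n h1
  have h3 : φ ((1 : M2 A) i j) = (1 : M2 B) i j := by
    rw [Matrix.one_apply, Matrix.one_apply]
    split <;> simp
  rw [map_sub, h3] at h2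
  exact h2

/-- Base change in a base-changed basis. -/
theorem exists_basis_baseChangeAlong (φ : A →+* B) (hφ : IsLocalHom φ) (ρ : GaloisRepAdic A)
    (b : Module.Basis (Fin 2) A ρ.V) :
    ∃ b' : Module.Basis (Fin 2) B (ρ.baseChangeAlong φ hφ).V,
      ∀ g, matOf (ρ.baseChangeAlong φ hφ) b' g = (matOf ρ b g).map φ := by
  let : Algebra A B := φ.toAlgebra
  refine ⟨Algebra.TensorProduct.basis B b, fun g => ?_⟩
  exact LinearMap.toMatrix_baseChange (A := B) (ρ.ρ g) b b

/-- Base change of a matrix representation is given by the mapped matrices. -/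
theorem ofMatrix_baseChangeAlong (φ : A →+* B) (hφ : IsLocalHom φ) (M : GQ →* M2 A)
    (hM : IsContMat M) :
    ((ofMatrix M hM).baseChangeAlong φ hφ).IsEquiv
      (ofMatrix (mapMat φ M) (isContMat_mapMat φ hφ hM)) := by
  obtain ⟨b', hb'⟩ := exists_basis_baseChangeAlong φ hφ (ofMatrix M hM) (stdBasis M hM)
  refine isEquiv_ofMatrix _ b' _ _ fun g => ?_
  rw [hb', matOf_stdBasis, mapMat_apply]

end BaseChange

section Residual

variable {k k' : Type} [Field k] [Field k']

/-- Transport of a basis along an equivalence of residual representations. -/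
theorem toMatrix_residualEquiv {r₁ r₂ : ResidualGaloisRep k} (e : ResidualGaloisRep.Equiv r₁ r₂)
    (b : Module.Basis (Fin 2) k r₁.V) (g : GQ) :
    LinearMap.toMatrix (b.map e.toLinearEquiv) (b.map e.toLinearEquiv) (r₂.ρ g) =
      LinearMap.toMatrix b b (r₁.ρ g) := by
  ext i j
  simp only [LinearMap.toMatrix_apply, Module.Basis.map_apply, Module.Basis.map_repr,
    LinearEquiv.trans_apply]
  rw [← e.map_apply, LinearEquiv.symm_apply_apply]

/-- Representations with the same matrices are equivalent. -/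
theorem residual_isEquiv_of_toMatrix {r₁ r₂ : ResidualGaloisRep k}
    (b₁ : Module.Basis (Fin 2) k r₁.V) (b₂ : Module.Basis (Fin 2) k r₂.V)
    (h : ∀ g, LinearMap.toMatrix b₁ b₁ (r₁.ρ g) = LinearMap.toMatrix b₂ b₂ (r₂.ρ g)) :
    r₁.IsEquiv r₂ :=
  ⟨{ toLinearEquiv := b₁.equiv b₂ (Equiv.refl _)
     map_apply := fun σ x => by
       have : (b₁.equiv b₂ (Equiv.refl _)).toLinearMap ∘ₗ r₁.ρ σ =
           r₂.ρ σ ∘ₗ (b₁.equiv b₂ (Equiv.refl _)).toLinearMap := by
         apply (LinearMap.toMatrix b₁ b₂).injective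
         rw [LinearMap.toMatrix_comp b₁ b₁ b₂, LinearMap.toMatrix_comp b₁ b₂ b₂, h]
         have h1 : LinearMap.toMatrix b₁ b₂ (b₁.equiv b₂ (Equiv.refl _)).toLinearMap = 1 := by
           ext i j
           simp [LinearMap.toMatrix_apply, Matrix.one_apply, Finsupp.single_apply, eq_comm]
         rw [h1, one_mul, mul_one]
       exact LinearMap.congr_fun this x }⟩

/-- A basis in which the base change has the mapped matrices. -/
theorem exists_basis_residual_baseChangeAlong (ψ : k →+* k') (r : ResidualGaloisRep k)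
    (b : Module.Basis (Fin 2) k r.V) :
    ∃ b' : Module.Basis (Fin 2) k' (r.baseChangeAlong ψ).V,
      ∀ g, LinearMap.toMatrix b' b' ((r.baseChangeAlong ψ).ρ g) =
        (LinearMap.toMatrix b b (r.ρ g)).map ψ := by
  let : Algebra k k' := ψ.toAlgebra
  refine ⟨Algebra.TensorProduct.basis k' b, fun g => ?_⟩
  exact LinearMap.toMatrix_baseChange (A := k') (r.ρ g) b b

variable {A : Type} [CommRing A] [IsLocalRing A]

/-- A basis in which the reduction has the reduced matrices. -/
theorem exists_basis_residual (ρ : GaloisRepAdic A) (b : Module.Basis (Fin 2) A ρ.V) :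
    ∃ b' : Module.Basis (Fin 2) (ResidueField A) ρ.residual.V,
      (∀ g, LinearMap.toMatrix b' b' (ρ.residual.ρ g) = (matOf ρ b g).map (residue A)) := by
  refine ⟨Algebra.TensorProduct.basis (ResidueField A) b, fun g => ?_⟩
  exact LinearMap.toMatrix_baseChange (A := ResidueField A) (ρ.ρ g) b b

/-- Lift a basis of the residual representation. -/
theorem exists_basis_lift (ρ : GaloisRepAdic A)
    (bb : Module.Basis (Fin 2) (ResidueField A) ρ.residual.V) :
    ∃ b : Module.Basis (Fin 2) A ρ.V,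
      ∀ g, (matOf ρ b g).map (residue A) = LinearMap.toMatrix bb bb (ρ.residual.ρ g) := by
  have hsurj : Function.Surjective
      (fun v : ρ.V => ((1 : ResidueField A) ⊗ₜ[A] v : ResidueField A ⊗[A] ρ.V)) :=
    TensorProduct.mk_surjective A ρ.V (ResidueField A) IsLocalRing.residue_surjective
  choose f hf using fun i : Fin 2 => hsurj (bb i)
  have hspan : Submodule.span A (Set.range f) = ⊤ :=
    IsLocalRing.span_eq_top_of_tmul_eq_basis (f := f) bb hf
  let b : Module.Basis (Fin 2) A ρ.V :=
    Module.Basis.mk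
      (linearIndependent_of_top_le_span_of_card_eq_finrank hspan.ge
        (by rw [Fintype.card_fin, ρ.finrank_eq]))
      hspan.ge
  refine ⟨b, fun g => ?_⟩
  have hbb : bb = Algebra.TensorProduct.basis (ResidueField A) b := by
    refine Module.Basis.eq_of_apply_eq fun i => ?_
    refine (hf i).symm.trans ?_
    refine Eq.trans ?_ (Algebra.TensorProduct.basis_apply (A := ResidueField A) b i).symm
    rw [Module.Basis.mk_apply]
  rw [hbb]
  exact (LinearMap.toMatrix_baseChange (A := ResidueField A) (ρ.ρ g) b b).symm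

end Residual

end Fermat.Agent.Deform
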