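import Mathlib
import Fermat.Agent.Deform.Burnside
import Fermat.Agent.Deform.MatRep

/-!
# Rigidification

Every deformation of an absolutely irreducible representation has a unique normalised matrix form,
so deformations become ring maps.
-/

noncomputable section

open scoped TensorProduct

namespace Fermat.Agent.Deform

open IsLocalRing Matrix

variable {𝒪 : Type} [CommRing 𝒪] [IsLocalRing 𝒪]

/-- The linear combination `∑ c_g • M g`, with coefficients from `𝒪`. -/
def evalMat {A : Type} [CommRing A] [Algebra 𝒪 A] (M : GQ → M2 A) (x : GQ →₀ 𝒪) : M2 A :=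
  x.sum fun g c => algebraMap 𝒪 A c • M g

omit [IsLocalRing 𝒪] in
theorem evalMat_map {A B : Type} [CommRing A] [CommRing B] [Algebra 𝒪 A] [Algebra 𝒪 B]
    (φ : A →+* B) (hφ : ∀ c, φ (algebraMap 𝒪 A c) = algebraMap 𝒪 B c) (M : GQ → M2 A)
    (x : GQ →₀ 𝒪) : (evalMat M x).map φ = evalMat (fun g => (M g).map φ) x := by
  unfold evalMat Finsupp.sum
  ext i j
  simp only [Matrix.map_apply, Matrix.sum_apply, Matrix.smul_apply, smul_eq_mul, map_sum, map_mul,
    hφ]

omit [IsLocalRing 𝒪] in
theorem evalMat_conj {A : Type} [CommRing A] [Algebra 𝒪 A] (P Q : M2 A) (M : GQ → M2 A)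
    (x : GQ →₀ 𝒪) : evalMat (fun g => P * M g * Q) x = P * evalMat M x * Q := by
  unfold evalMat Finsupp.sum
  simp [Finset.mul_sum, Finset.sum_mul]

/-- A basis of `ρbar` and group algebra elements acting as two matrix units. -/
structure Frame (ρbar : ResidualGaloisRep (ResidueField 𝒪)) where
  /-- The basis of `ρbar`. -/
  b0 : Module.Basis (Fin 2) (ResidueField 𝒪) ρbar.V
  /-- An element of the group algebra acting as the matrix unit `(0, 0)`. -/
  x : GQ →₀ 𝒪
  /-- An element of the group algebra acting as the matrix unit `(1, 0)`. -/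
  y : GQ →₀ 𝒪
  hx : evalMat (fun g => LinearMap.toMatrix b0 b0 (ρbar.ρ g)) x = Matrix.single 0 0 1
  hy : evalMat (fun g => LinearMap.toMatrix b0 b0 (ρbar.ρ g)) y = Matrix.single 1 0 1

/-- An absolutely irreducible representation has a frame. -/
theorem nonempty_frame (ρbar : ResidualGaloisRep (ResidueField 𝒪))
    (habs : ρbar.IsAbsolutelyIrreducible) : Nonempty (Frame ρbar) := by
  classical
  let b0 := Module.finBasisOfFinrankEq (ResidueField 𝒪) ρbar.V ρbar.finrank_eq
  have htop := span_toMatrix_eq_top ρbar habs b0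
  choose s hs using IsLocalRing.residue_surjective (R := 𝒪)
  have lift : ∀ T : M2 (ResidueField 𝒪),
      ∃ x : GQ →₀ 𝒪, evalMat (fun g => LinearMap.toMatrix b0 b0 (ρbar.ρ g)) x = T := by
    intro T
    obtain ⟨c, hc⟩ := Finsupp.mem_span_range_iff_exists_finsupp.1
      (htop.ge (Submodule.mem_top : T ∈ ⊤))
    refine ⟨Finsupp.onFinset c.support (fun g => if c g = 0 then 0 else s (c g))
      (fun g hg => by by_contra h; simp at h; simp [h] at hg), ?_⟩
    rw [evalMat, Finsupp.onFinset_sum _ (by simp), ← hc, Finsupp.sum]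
    refine Finset.sum_congr rfl fun g hg => ?_
    rw [if_neg (Finsupp.mem_support_iff.1 hg)]
    exact congr($(hs (c g)) • _)
  obtain ⟨x, hx⟩ := lift (Matrix.single 0 0 1)
  obtain ⟨y, hy⟩ := lift (Matrix.single 1 0 1)
  exact ⟨⟨b0, x, y, hx, hy⟩⟩

variable {ρbar : ResidualGaloisRep (ResidueField 𝒪)} (F : Frame ρbar)

/-- The matrices of `ρbar` in the frame. -/
def Frame.ρ0 (g : GQ) : M2 (ResidueField 𝒪) := LinearMap.toMatrix F.b0 F.b0 (ρbar.ρ g)

section

variable {A : Type} [CommRing A] [IsLocalRing A] [Algebra 𝒪 A] [IsLocalHom (algebraMap 𝒪 A)]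

/-- The map of residue fields. -/
def resMap (A : Type) [CommRing A] [IsLocalRing A] [Algebra 𝒪 A] [IsLocalHom (algebraMap 𝒪 A)] :
    ResidueField 𝒪 →+* ResidueField A :=
  ResidueField.map (algebraMap 𝒪 A)

theorem resMap_residue (c : 𝒪) : resMap A (residue 𝒪 c) = residue A (algebraMap 𝒪 A c) :=
  IsLocalRing.ResidueField.map_residue _ _

/-- Normalised matrix lifts of `ρbar`. -/
structure IsGood (M : GQ →* M2 A) : Prop where
  cont : IsContMat M
  residual : ∀ g, (M g).map (residue A) = (F.ρ0 g).map (resMap A)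
  x10 : evalMat M F.x 1 0 = 0
  y00 : evalMat M F.y 0 0 = 0
  y10 : evalMat M F.y 1 0 = 1

theorem evalMat_residual {M : GQ →* M2 A}
    (h : ∀ g, (M g).map (residue A) = (F.ρ0 g).map (resMap A)) (x : GQ →₀ 𝒪) :
    (evalMat M x).map (residue A) = (evalMat F.ρ0 x).map (resMap A) := by
  let : Algebra 𝒪 (ResidueField A) := ((residue A).comp (algebraMap 𝒪 A)).toAlgebra
  have h1 := evalMat_map (𝒪 := 𝒪) (residue A) (fun c => rfl) (fun g => M g) x
  have h2 := evalMat_map (𝒪 := 𝒪) (resMap A) (fun c => resMap_residue c) F.ρ0 x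
  refine h1.trans (Eq.trans ?_ h2.symm)
  exact congrArg (fun T => evalMat T x) (funext h)

/-- A normalised matrix form reduces to the given residual representation. -/
theorem residual_isEquiv {M : GQ →* M2 A} (hM : IsGood F M) :
    (ofMatrix M hM.cont).residual.IsEquiv (ρbar.baseChangeAlong (resMap A)) := by
  obtain ⟨b, hb⟩ := exists_basis_residual (ofMatrix M hM.cont) (stdBasis M hM.cont)
  obtain ⟨b', hb'⟩ := exists_basis_residual_baseChangeAlong (resMap A) ρbar F.b0
  refine residual_isEquiv_of_toMatrix b b' fun g => ?_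
  rw [hb, hb', matOf_stdBasis, hM.residual]
  rfl

/-- Equivalent normalised matrix forms are equal. -/
theorem IsGood.unique {M M' : GQ →* M2 A} (hM : IsGood F M) (hM' : IsGood F M')
    (h : (ofMatrix M hM.cont).IsEquiv (ofMatrix M' hM'.cont)) : M = M' := by
  obtain ⟨P, hP⟩ := exists_intertwine h (stdBasis M hM.cont) (stdBasis M' hM'.cont)
  simp only [matOf_stdBasis] at hP
  have heq : ∀ x : GQ →₀ 𝒪, (P : M2 A) * evalMat M x = evalMat M' x * P := by
    intro x
    unfold evalMat Finsupp.sum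
    rw [Finset.mul_sum, Finset.sum_mul]
    refine Finset.sum_congr rfl fun g _ => ?_
    rw [mul_smul_comm, smul_mul_assoc, hP]
  have hres : ∀ {N : GQ →* M2 A}, IsGood F N →
      residue A (evalMat N F.x 0 0) = 1 ∧ residue A (evalMat N F.x 1 1) = 0 := by
    intro N hN
    have h1 := evalMat_residual F hN.residual F.x
    rw [show evalMat F.ρ0 F.x = _ from F.hx] at h1
    constructor
    · simpa using congrFun (congrFun h1 0) 0
    · simpa using congrFun (congrFun h1 1) 1
  have hx := congrFun (congrFun (heq F.x) 1) 0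
  simp only [Matrix.mul_apply, Fin.sum_univ_two, hM.x10, hM'.x10, mul_zero, add_zero,
    zero_mul, zero_add] at hx
  have hunit : IsUnit (evalMat M F.x 0 0 - evalMat M' F.x 1 1) := by
    rw [← residue_ne_zero_iff_isUnit, map_sub, (hres hM).1, (hres hM').2, sub_zero]
    exact one_ne_zero
  have h10 : (P : M2 A) 1 0 = 0 := by
    refine hunit.mul_left_eq_zero.1 ?_
    linear_combination hx
  have hy0 := congrFun (congrFun (heq F.y) 0) 0
  have hy1 := congrFun (congrFun (heq F.y) 1) 0
  simp only [Matrix.mul_apply, Fin.sum_univ_two, hM.y00, hM.y10, hM'.y00, hM'.y10, h10, mul_zero,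
    add_zero, zero_add, mul_one, one_mul] at hy0 hy1
  have hscal : (P : M2 A) = (P : M2 A) 0 0 • (1 : M2 A) := by
    ext i j
    fin_cases i <;> fin_cases j <;> simp [h10, hy0, hy1]
  refine MonoidHom.ext fun g => P.isUnit.mul_left_cancel ?_
  rw [hP]
  conv_rhs => rw [hscal]
  conv_lhs => rw [hscal]
  simp

variable [IsAdicComplete (maximalIdeal A) A]

omit [Algebra 𝒪 A] [IsLocalHom (algebraMap 𝒪 A)] in
/-- A matrix reducing to the matrix unit `(0, 0)` has an eigenvalue reducing to `1`. -/
theorem exists_root_residue_eq_one (X : M2 A) (h00 : residue A (X 0 0) = 1)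
    (h01 : residue A (X 0 1) = 0) (h10 : residue A (X 1 0) = 0) (h11 : residue A (X 1 1) = 0) :
    ∃ lam, residue A lam = 1 ∧
      lam ^ 2 - (X 0 0 + X 1 1) * lam + (X 0 0 * X 1 1 - X 0 1 * X 1 0) = 0 := by
  let t := X 0 0 + X 1 1
  let d := X 0 0 * X 1 1 - X 0 1 * X 1 0
  let f : Polynomial A := Polynomial.X ^ 2 - Polynomial.C t * Polynomial.X + Polynomial.C d
  have hf : f.Monic := by
    refine Polynomial.monic_of_degree_le 2 ?_ ?_ <;>
      simp only [f]
    · compute_degree
      all_goals norm_num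
    · compute_degree!
  obtain ⟨lam, hlam, hlam1⟩ := HenselianRing.is_henselian (I := maximalIdeal A) f hf 1
    (by
      rw [← residue_eq_zero_iff]
      simp [f, t, d, h00, h01, h10, h11])
    (by
      refine IsUnit.map _ ?_
      rw [← residue_ne_zero_iff_isUnit]
      simp [f, t, d, h00, h11]
      try norm_num)
  have hlam' : residue A lam = 1 := by
    rw [← sub_eq_zero, ← map_one (residue A), ← map_sub, residue_eq_zero_iff]
    exact hlam1
  exact ⟨lam, hlam', by simpa [f, t, d, Polynomial.IsRoot] using hlam⟩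

/-- A deformation of `ρbar` to a complete local ring is equivalent to a normalised one. -/
theorem exists_good (ρ : GaloisRepAdic A)
    (hres : ρ.residual.IsEquiv (ρbar.baseChangeAlong (resMap A))) :
    ∃ (M : GQ →* M2 A) (hM : IsGood F M), ρ.IsEquiv (ofMatrix M hM.cont) := by
  obtain ⟨e⟩ := hres
  obtain ⟨bb, hbb⟩ := exists_basis_residual_baseChangeAlong (resMap A) ρbar F.b0
  obtain ⟨b, hb⟩ := exists_basis_lift ρ (bb.map e.toLinearEquiv.symm)
  have hres : ∀ g, (matOf ρ b g).map (residue A) = (F.ρ0 g).map (resMap A) := by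
    intro g
    rw [hb]
    exact (toMatrix_residualEquiv e.symm bb g).trans (hbb g)
  set M := matOf ρ b with hMdef
  set X := evalMat M F.x with hXdef
  have hX : X.map (residue A) = (Matrix.single 0 0 1 : M2 (ResidueField 𝒪)).map (resMap A) := by
    rw [hXdef, evalMat_residual F hres, show evalMat F.ρ0 F.x = _ from F.hx]
  have hY : (evalMat M F.y).map (residue A) =
      (Matrix.single 1 0 1 : M2 (ResidueField 𝒪)).map (resMap A) := by
    rw [evalMat_residual F hres, show evalMat F.ρ0 F.y = _ from F.hy]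
  have eX : ∀ i j, residue A (X i j) = resMap A ((Matrix.single 0 0 1 : M2 (ResidueField 𝒪)) i j) :=
    fun i j => congrFun (congrFun hX i) j
  have eY : ∀ i j, residue A (evalMat M F.y i j) =
      resMap A ((Matrix.single 1 0 1 : M2 (ResidueField 𝒪)) i j) :=
    fun i j => congrFun (congrFun hY i) j
  obtain ⟨lam, hlam', hroot⟩ := exists_root_residue_eq_one X (by simp [eX]) (by simp [eX])
    (by simp [eX]) (by simp [eX])
  let μ := X 0 0 + X 1 1 - lam
  have hμ : residue A μ = 0 := by simp [μ, eX, hlam']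
  let v : Fin 2 → A := ![X 0 0 - μ, X 1 0]
  have hv : X.mulVec v = lam • v := by
    funext i
    fin_cases i <;> simp [v, μ, Matrix.mulVec, dotProduct, Fin.sum_univ_two]
    · linear_combination -hroot
    · ring
  let w : Fin 2 → A := (evalMat M F.y).mulVec v
  let Pm : M2 A := Matrix.of fun i j => if j = 0 then v i else w i
  have hPm : Pm.map (residue A) = 1 := by
    ext i j
    fin_cases i <;> fin_cases j <;>
      simp [Pm, v, w, eX, eY, hμ]
  have hdet : IsUnit Pm.det := by
    rw [← residue_ne_zero_iff_isUnit, RingHom.map_det, RingHom.mapMatrix_apply, hPm, Matrix.det_one]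
    exact one_ne_zero
  obtain ⟨P, hP⟩ := (Matrix.isUnit_iff_isUnit_det _).2 hdet
  let M' : GQ →* M2 A :=
    { toFun := fun g => (↑P⁻¹ : M2 A) * M g * P
      map_one' := by simp
      map_mul' := fun g h => by
        rw [map_mul]
        simp [mul_assoc] }
  have hPres : (P : M2 A).map (residue A) = 1 := hP ▸ hPm
  have hPinv : (↑P⁻¹ : M2 A).map (residue A) = 1 := by
    have h1 := congrArg (residue A).mapMatrix P.inv_mul
    rw [map_mul, map_one, RingHom.mapMatrix_apply, RingHom.mapMatrix_apply, hPres, mul_one] at h1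
    exact h1
  have heval : ∀ x : GQ →₀ 𝒪, evalMat M' x = (↑P⁻¹ : M2 A) * evalMat M x * P :=
    fun x => evalMat_conj _ _ _ x
  have hcol : ∀ (Z : M2 A) (i : Fin 2), ((↑P⁻¹ : M2 A) * Z * P) i 0 =
      (↑P⁻¹ : M2 A).mulVec (Z.mulVec v) i := by
    intro Z i
    have : (fun j => (P : M2 A) j 0) = v := by funext j; simp [hP, Pm]
    rw [Matrix.mulVec_mulVec, ← this]
    rfl
  have hPv : (↑P⁻¹ : M2 A).mulVec v = ![1, 0] := by
    funext i
    have h0 : (fun j => (P : M2 A) j 0) = v := by funext j; simp [hP, Pm]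
    rw [← h0]
    show ((↑P⁻¹ : M2 A) * (P : M2 A)) i 0 = _
    rw [Units.inv_mul, Matrix.one_apply]
    fin_cases i <;> rfl
  have hPw : (↑P⁻¹ : M2 A).mulVec w = ![0, 1] := by
    funext i
    have h0 : (fun j => (P : M2 A) j 1) = w := by funext j; simp [hP, Pm]
    rw [← h0]
    show ((↑P⁻¹ : M2 A) * (P : M2 A)) i 1 = _
    rw [Units.inv_mul, Matrix.one_apply]
    fin_cases i <;> rfl
  have hcont : IsContMat M' := by
    intro n
    obtain ⟨L, hL, h⟩ := isContMat_matOf ρ b n
    refine ⟨L, hL, fun σ hσ i j => ?_⟩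
    have he : M' σ - 1 = (↑P⁻¹ : M2 A) * (M σ - 1) * P := by
      show (↑P⁻¹ : M2 A) * M σ * P - 1 = _
      rw [mul_sub, sub_mul, mul_one, Units.inv_mul]
    rw [← Matrix.sub_apply, he, Matrix.mul_apply]
    refine Ideal.sum_mem _ fun l _ => Ideal.mul_mem_right _ _ ?_
    rw [Matrix.mul_apply]
    exact Ideal.sum_mem _ fun m _ => Ideal.mul_mem_left _ _ (h σ hσ m l)
  have hgood : IsGood F M' :=
    { cont := hcont
      residual := fun g => by
        show ((↑P⁻¹ : M2 A) * M g * P).map (residue A) = _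
        rw [← RingHom.mapMatrix_apply, map_mul, map_mul, RingHom.mapMatrix_apply,
          RingHom.mapMatrix_apply, RingHom.mapMatrix_apply, hPres, hPinv, one_mul, mul_one, hres]
      x10 := by rw [heval, hcol, ← hXdef, hv, Matrix.mulVec_smul, hPv]; simp
      y00 := by rw [heval, hcol]; show (↑P⁻¹ : M2 A).mulVec w 0 = 0; rw [hPw]; simp
      y10 := by rw [heval, hcol]; show (↑P⁻¹ : M2 A).mulVec w 1 = 1; rw [hPw]; simp }
  obtain ⟨e1⟩ := isEquiv_ofMatrix ρ b M (isContMat_matOf ρ b) (fun g => rfl)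
  obtain ⟨e2⟩ := isEquiv_of_intertwine (isContMat_matOf ρ b) hcont P⁻¹ (fun g => by
    show (↑P⁻¹ : M2 A) * M g = (↑P⁻¹ : M2 A) * M g * (P : M2 A) * (↑P⁻¹ : M2 A)
    rw [Units.mul_inv_cancel_right])
  exact ⟨M', hgood, ⟨e1.trans e2⟩⟩

end

/-- Normalised forms map to normalised forms. -/
theorem IsGood.map {A B : Type} [CommRing A] [IsLocalRing A] [Algebra 𝒪 A]
    [IsLocalHom (algebraMap 𝒪 A)] [CommRing B] [IsLocalRing B] [Algebra 𝒪 B]
    [IsLocalHom (algebraMap 𝒪 B)] {M : GQ →* M2 A} (hM : IsGood F M) (φ : A →ₐ[𝒪] B)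
    (hφ : IsLocalHom (φ : A →+* B)) : IsGood F (mapMat (φ : A →+* B) M) := by
  have := hφ
  have hev : ∀ x, evalMat (mapMat (φ : A →+* B) M) x = (evalMat M x).map φ := fun x =>
    (evalMat_map (φ : A →+* B) φ.commutes M x).symm
  refine ⟨isContMat_mapMat _ hφ hM.cont, fun g => ?_, ?_, ?_, ?_⟩
  · ext i j
    have h1 : ResidueField.map (φ : A →+* B) (residue A (M g i j)) =
        ResidueField.map (φ : A →+* B) (resMap A (F.ρ0 g i j)) :=
      congrArg _ (congrFun (congrFun (hM.residual g) i) j)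
    obtain ⟨c, hc⟩ := IsLocalRing.residue_surjective (F.ρ0 g i j)
    rw [ResidueField.map_residue, ← hc, resMap_residue, ResidueField.map_residue] at h1
    show residue B ((φ : A →+* B) (M g i j)) = resMap B (F.ρ0 g i j)
    rw [← hc, resMap_residue, h1]
    exact congrArg (residue B) (φ.commutes c)
  · rw [hev, Matrix.map_apply, hM.x10, map_zero]
  · rw [hev, Matrix.map_apply, hM.y00, map_zero]
  · rw [hev, Matrix.map_apply, hM.y10, map_one]

end Fermat.Agent.Deform
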