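import Mathlib
import Fermat.Prelude.Def_GaloisRep_DeformationCondition
import Fermat.Agent.Deform.Completion
import Fermat.Agent.Deform.Normal

/-!
# Admissible ideals of the universal polynomial ring

The ideals cutting out normalised deformations to artinian test algebras, over which the universal
deformation ring is completed.
-/

noncomputable section

namespace Fermat.Agent.Deform

open IsLocalRing GaloisRep

variable {𝒪 : Type} [CommRing 𝒪]

/-- The polynomial ring in the matrix entries of all group elements. -/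
abbrev EntryRing (𝒪 : Type) [CommRing 𝒪] : Type := MvPolynomial (GQ × Fin 2 × Fin 2) 𝒪

/-- The tautological matrices. -/
def tautMat (g : GQ) : M2 (EntryRing 𝒪) := Matrix.of fun i j => MvPolynomial.X (g, i, j)

/-- Evaluation of the entry ring at a matrix-valued function. -/
def entryHom {A : Type} [CommRing A] [Algebra 𝒪 A] (M : GQ → M2 A) : EntryRing 𝒪 →ₐ[𝒪] A :=
  MvPolynomial.aeval fun t => M t.1 t.2.1 t.2.2

@[simp]
theorem entryHom_X {A : Type} [CommRing A] [Algebra 𝒪 A] (M : GQ → M2 A) (g : GQ) (i j : Fin 2) :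
    entryHom (𝒪 := 𝒪) M (MvPolynomial.X (g, i, j)) = M g i j :=
  MvPolynomial.aeval_X _ _

/-- Evaluation sends the tautological matrices to the given ones. -/
theorem tautMat_map {A : Type} [CommRing A] [Algebra 𝒪 A] (M : GQ → M2 A) (g : GQ) :
    (tautMat (𝒪 := 𝒪) g).map (entryHom M) = M g := by
  ext i j; simp [tautMat]

theorem comp_entryHom {A B : Type} [CommRing A] [Algebra 𝒪 A] [CommRing B] [Algebra 𝒪 B]
    (φ : A →ₐ[𝒪] B) (M : GQ → M2 A) :
    φ.comp (entryHom M) = entryHom fun g => (M g).map φ :=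
  MvPolynomial.algHom_ext fun ⟨g, i, j⟩ => by simp

/-- A matrix representation is determined by its evaluation map. -/
theorem eq_of_entryHom_eq {A : Type} [CommRing A] [Algebra 𝒪 A] {M M' : GQ →* M2 A}
    (h : ∀ p : EntryRing 𝒪, entryHom M p = entryHom M' p) : M = M' :=
  MonoidHom.ext fun g => Matrix.ext fun i j => by simpa using h (MvPolynomial.X (g, i, j))

/-- An algebra map between local algebras without residual extension is local. -/
theorem isLocalHom_algHom {A B : Type} [CommRing A] [IsLocalRing A] [Algebra 𝒪 A]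
    [IsLocalHom (algebraMap 𝒪 A)] [CommRing B] [IsLocalRing B] [Algebra 𝒪 B]
    [IsLocalHom (algebraMap 𝒪 B)] (hB : Function.Surjective (residue B ∘ algebraMap 𝒪 B))
    (φ : A →ₐ[𝒪] B) : IsLocalHom (φ : A →+* B) := by
  constructor
  intro a ha
  by_contra hna
  obtain ⟨c, hc⟩ := hB (residue B (φ a))
  have hcu : IsUnit c := by
    by_contra h
    have h1 : ¬ IsUnit (algebraMap 𝒪 B c) := fun h' => h (IsUnit.of_map (algebraMap 𝒪 B) c h')
    have h2 : residue B (algebraMap 𝒪 B c) = 0 := (residue_eq_zero_iff _).2 h1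
    exact (residue_eq_zero_iff (φ a)).1 (hc.symm.trans h2) ha
  have h3 : IsUnit (a - algebraMap 𝒪 A c) := by
    by_contra h
    have h4 : algebraMap 𝒪 A c ∈ maximalIdeal A := by
      have := Ideal.sub_mem _ (show a ∈ maximalIdeal A from hna)
        (show a - algebraMap 𝒪 A c ∈ maximalIdeal A from h)
      simpa using this
    exact h4 (hcu.map _)
  have h5 := (residue_ne_zero_iff_isUnit _).2 (h3.map φ)
  rw [map_sub, AlgHom.commutes, map_sub, sub_ne_zero] at h5
  exact h5 hc.symm

variable [IsLocalRing 𝒪]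

/-- Artinian test algebras are finite. -/
theorem finite_of_isArtinianTestAlgebra [Finite (ResidueField 𝒪)] {A : Type} [CommRing A]
    [IsLocalRing A] [Algebra 𝒪 A] (hA : IsArtinianTestAlgebra 𝒪 A) : Finite A := by
  have := hA.isLocalHom
  have := hA.isArtinian
  have : Finite (A ⧸ maximalIdeal A) := finite_residueField_of_surjective hA.residue_surjective
  obtain ⟨n, hn⟩ := (isArtinianRing_iff_isNilpotent_maximalIdeal A).mp inferInstance
  have : Finite (A ⧸ maximalIdeal A ^ n) :=
    Ideal.finite_quotient_pow (IsNoetherian.noetherian _) n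
  refine Finite.of_injective (Ideal.Quotient.mk (maximalIdeal A ^ n)) ?_
  rw [RingHom.injective_iff_ker_eq_bot, Ideal.mk_ker, hn, Ideal.zero_eq_bot]

variable {ρbar : ResidualGaloisRep (ResidueField 𝒪)} (F : Frame ρbar)

/-- Evaluation of the entry ring at the matrices of `ρbar`. -/
def residualEntryHom : EntryRing 𝒪 →ₐ[𝒪] ResidueField 𝒪 := entryHom F.ρ0

/-- The kernel of the residual evaluation. -/
def residualIdeal : Ideal (EntryRing 𝒪) := RingHom.ker (residualEntryHom F)

/-- The evaluation at the matrices of `ρbar` is onto. -/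
theorem residualEntryHom_surjective : Function.Surjective (residualEntryHom F) := by
  intro y
  obtain ⟨c, rfl⟩ := residue_surjective y
  exact ⟨algebraMap 𝒪 _ c, (residualEntryHom F).commutes c⟩

theorem residualIdeal_isMaximal : (residualIdeal F).IsMaximal :=
  RingHom.ker_isMaximal_of_surjective _ (residualEntryHom_surjective F)

theorem residualIdeal_ne_top : residualIdeal F ≠ ⊤ := (residualIdeal_isMaximal F).ne_top

theorem map_maximalIdeal_le :
    (maximalIdeal 𝒪).map (algebraMap 𝒪 (EntryRing 𝒪)) ≤ residualIdeal F :=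
  Ideal.map_le_of_le_comap fun c hc => by
    rw [Ideal.mem_comap, residualIdeal, RingHom.mem_ker, AlgHom.commutes]
    exact (residue_eq_zero_iff c).2 hc

/-- Every polynomial is a constant modulo the residual ideal. -/
theorem exists_sub_algebraMap_mem (p : EntryRing 𝒪) :
    ∃ c : 𝒪, p - algebraMap 𝒪 _ c ∈ residualIdeal F := by
  obtain ⟨c, hc⟩ := residue_surjective (residualEntryHom F p)
  refine ⟨c, ?_⟩
  rw [residualIdeal, RingHom.mem_ker, map_sub, AlgHom.commutes, sub_eq_zero]
  exact hc.symm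

section

variable {A : Type} [CommRing A] [IsLocalRing A] [Algebra 𝒪 A] [IsLocalHom (algebraMap 𝒪 A)]

theorem residue_entryHom {M : GQ →* M2 A}
    (h : ∀ g, (M g).map (residue A) = (F.ρ0 g).map (resMap A)) (p : EntryRing 𝒪) :
    residue A (entryHom M p) = resMap A (residualEntryHom F p) := by
  have he : (residue A).comp (entryHom (𝒪 := 𝒪) M).toRingHom =
      (resMap A).comp (residualEntryHom F).toRingHom := by
    refine MvPolynomial.ringHom_ext (fun c => ?_) fun t => ?_
    · show residue A (entryHom M (algebraMap 𝒪 _ c)) =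
        resMap A (residualEntryHom F (algebraMap 𝒪 _ c))
      rw [AlgHom.commutes, AlgHom.commutes]
      exact (resMap_residue c).symm
    · obtain ⟨g, i, j⟩ := t
      show residue A (entryHom M (MvPolynomial.X (g, i, j))) =
        resMap A (residualEntryHom F (MvPolynomial.X (g, i, j)))
      rw [residualEntryHom, entryHom_X, entryHom_X]
      exact congrFun (congrFun (h g) i) j
  exact RingHom.congr_fun he p

/-- A normalised deformation sends exactly the residual ideal into the maximal ideal. -/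
theorem entryHom_mem_maximalIdeal {M : GQ →* M2 A} (hM : IsGood F M) (p : EntryRing 𝒪) :
    entryHom M p ∈ maximalIdeal A ↔ p ∈ residualIdeal F := by
  rw [← residue_eq_zero_iff, residue_entryHom F hM.residual, residualIdeal, RingHom.mem_ker,
    map_eq_zero_iff _ (resMap A).injective]

end

/-- An ideal of finite colength between a power of the residual ideal and the residual ideal,
containing the relations of a normalised deformation: it cuts out one to a finite test algebra. -/
structure IsAdmissible (I : Ideal (EntryRing 𝒪)) : Prop where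
  le : I ≤ residualIdeal F
  nil : ∃ n, residualIdeal F ^ n ≤ I
  finite : Finite (EntryRing 𝒪 ⧸ I)
  one : ∀ i j, (tautMat 1 - 1 : M2 (EntryRing 𝒪)) i j ∈ I
  mul : ∀ g h i j, (tautMat (g * h) - tautMat g * tautMat h : M2 (EntryRing 𝒪)) i j ∈ I
  x10 : evalMat (tautMat (𝒪 := 𝒪)) F.x 1 0 ∈ I
  y00 : evalMat (tautMat (𝒪 := 𝒪)) F.y 0 0 ∈ I
  y10 : evalMat (tautMat (𝒪 := 𝒪)) F.y 1 0 - 1 ∈ I
  cont : ∃ L : IntermediateField ℚ (AlgebraicClosure ℚ), FiniteDimensional ℚ L ∧
    ∀ σ : GQ, (∀ x ∈ L, σ x = x) → ∀ i j, (tautMat σ - 1 : M2 (EntryRing 𝒪)) i j ∈ I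

section

variable {A : Type} [CommRing A] [IsLocalRing A] [Algebra 𝒪 A] [IsLocalHom (algebraMap 𝒪 A)]

omit [IsLocalRing 𝒪] [IsLocalRing A] [IsLocalHom (algebraMap 𝒪 A)] in
theorem entryHom_evalMat (M : GQ → M2 A) (x : GQ →₀ 𝒪) :
    (evalMat (tautMat (𝒪 := 𝒪)) x).map (entryHom M) = evalMat M x := by
  have := evalMat_map (𝒪 := 𝒪) (entryHom (𝒪 := 𝒪) M).toRingHom (entryHom (𝒪 := 𝒪) M).commutes
    tautMat x
  refine this.trans (congrArg (fun T => evalMat T x) (funext fun g => ?_))
  exact tautMat_map M g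

omit [IsLocalRing 𝒪] [IsLocalRing A] [IsLocalHom (algebraMap 𝒪 A)] in
theorem map_tautMat_mem_iff (M : GQ → M2 A) (T : M2 (EntryRing 𝒪)) (i j : Fin 2) :
    T i j ∈ RingHom.ker (entryHom (𝒪 := 𝒪) M) ↔ T.map (entryHom M) i j = 0 := by
  rw [RingHom.mem_ker, Matrix.map_apply]

/-- The kernel of a normalised deformation to a test algebra is admissible. -/
theorem isAdmissible_ker [Finite (ResidueField 𝒪)] (hA : IsArtinianTestAlgebra 𝒪 A)
    {M : GQ →* M2 A} (hM : IsGood F M) :
    IsAdmissible F (RingHom.ker (entryHom (𝒪 := 𝒪) M)) := by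
  have := finite_of_isArtinianTestAlgebra hA
  have := hA.isArtinian
  obtain ⟨n, hn⟩ := (isArtinianRing_iff_isNilpotent_maximalIdeal A).mp inferInstance
  have hf : ∀ T : M2 (EntryRing 𝒪), T.map (entryHom M) = (entryHom (𝒪 := 𝒪) M).mapMatrix T :=
    fun T => rfl
  refine ⟨fun p hp => (entryHom_mem_maximalIdeal F hM p).1 ?_, ⟨n, ?_⟩, ?_, fun i j => ?_,
    fun g h i j => ?_, ?_, ?_, ?_, ?_⟩
  · rw [RingHom.mem_ker] at hp
    rw [hp]
    exact zero_mem _
  · refine le_trans (Ideal.pow_right_mono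
      (fun p hp => Ideal.mem_comap.2 ((entryHom_mem_maximalIdeal F hM p).2 hp) :
        residualIdeal F ≤ (maximalIdeal A).comap (entryHom M)) n) ?_
    refine (Ideal.le_comap_pow _ n).trans ?_
    rw [hn, Ideal.zero_eq_bot]
    exact le_of_eq (RingHom.ker_eq_comap_bot _).symm
  · exact Finite.of_injective _ (RingHom.kerLift_injective (entryHom (𝒪 := 𝒪) M).toRingHom)
  · rw [map_tautMat_mem_iff, hf, map_sub, map_one, ← hf, tautMat_map, map_one, sub_self]
    rfl
  · rw [map_tautMat_mem_iff, hf, map_sub, map_mul, ← hf, ← hf, ← hf, tautMat_map, tautMat_map,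
      tautMat_map, map_mul, sub_self]
    rfl
  · rw [map_tautMat_mem_iff, entryHom_evalMat, hM.x10]
  · rw [map_tautMat_mem_iff, entryHom_evalMat, hM.y00]
  · rw [RingHom.mem_ker, map_sub, map_one, ← Matrix.map_apply (f := entryHom M),
      entryHom_evalMat, hM.y10, sub_self]
  · obtain ⟨L, hL, h⟩ := hM.cont n
    refine ⟨L, hL, fun σ hσ i j => ?_⟩
    rw [map_tautMat_mem_iff, hf, map_sub, map_one, ← hf, tautMat_map, Matrix.sub_apply]
    have := h σ hσ i j
    rwa [hn, Ideal.zero_eq_bot, Submodule.mem_bot] at this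

end

/-- Admissible ideals are closed under intersection. -/
theorem IsAdmissible.inf {I J : Ideal (EntryRing 𝒪)} (hI : IsAdmissible F I)
    (hJ : IsAdmissible F J) : IsAdmissible F (I ⊓ J) := by
  obtain ⟨n, hn⟩ := hI.nil
  obtain ⟨m, hm⟩ := hJ.nil
  obtain ⟨L, hL, hL'⟩ := hI.cont
  obtain ⟨L', hLf, hL''⟩ := hJ.cont
  have := hI.finite
  have := hJ.finite
  have := hL
  have := hLf
  refine ⟨inf_le_left.trans hI.le,
    ⟨max n m, le_inf ((Ideal.pow_le_pow_right (le_max_left n m)).trans hn)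
      ((Ideal.pow_le_pow_right (le_max_right n m)).trans hm)⟩, ?_,
    fun i j => ⟨hI.one i j, hJ.one i j⟩, fun g h i j => ⟨hI.mul g h i j, hJ.mul g h i j⟩,
    ⟨hI.x10, hJ.x10⟩, ⟨hI.y00, hJ.y00⟩, ⟨hI.y10, hJ.y10⟩,
    ⟨L ⊔ L', inferInstance, fun σ hσ i j =>
      ⟨hL' σ (fun x hx => hσ x ((le_sup_left : L ≤ L ⊔ L') hx)) i j,
       hL'' σ (fun x hx => hσ x ((le_sup_right : L' ≤ L ⊔ L') hx)) i j⟩⟩⟩
  refine Finite.of_injective
    (fun x => (Ideal.Quotient.factor (inf_le_left : I ⊓ J ≤ I) x,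
      Ideal.Quotient.factor (inf_le_right : I ⊓ J ≤ J) x)) ?_
  intro x y hxy
  obtain ⟨p, rfl⟩ := Ideal.Quotient.mk_surjective x
  obtain ⟨q, rfl⟩ := Ideal.Quotient.mk_surjective y
  simp only [Prod.mk.injEq, Ideal.Quotient.factor_mk, Ideal.Quotient.mk_eq_mk_iff_sub_mem] at hxy
  exact (Ideal.Quotient.mk_eq_mk_iff_sub_mem _ _).2 ⟨hxy.1, hxy.2⟩

/-- An ideal between an admissible one and the residual ideal is admissible. -/
theorem IsAdmissible.mono {I J : Ideal (EntryRing 𝒪)} (hI : IsAdmissible F I)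
    (hJ : J ≤ residualIdeal F) (h : I ≤ J) : IsAdmissible F J := by
  obtain ⟨n, hn⟩ := hI.nil
  obtain ⟨L, hL, hL'⟩ := hI.cont
  have := hI.finite
  exact ⟨hJ, ⟨n, hn.trans h⟩,
    Finite.of_surjective _ (Ideal.Quotient.factor_surjective h),
    fun i j => h (hI.one i j), fun g g' i j => h (hI.mul g g' i j), h hI.x10, h hI.y00, h hI.y10,
    L, hL, fun σ hσ i j => h (hL' σ hσ i j)⟩

/-- The quotient by an admissible ideal is local. -/
theorem IsAdmissible.isLocalRing {I : Ideal (EntryRing 𝒪)} (hI : IsAdmissible F I) :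
    IsLocalRing (EntryRing 𝒪 ⧸ I) := by
  have : Nontrivial (EntryRing 𝒪 ⧸ I) :=
    Ideal.Quotient.nontrivial_iff.2 fun h =>
      residualIdeal_ne_top F (top_le_iff.1 (h ▸ hI.le))
  refine IsLocalRing.of_nonunits_add ?_
  have key : ∀ p, ¬ IsUnit (Ideal.Quotient.mk I p) ↔ p ∈ residualIdeal F := by
    intro p
    constructor
    · intro h
      by_contra hp
      obtain ⟨q, i, hi, hqi⟩ := (residualIdeal_isMaximal F).exists_inv hp
      obtain ⟨n, hn⟩ := hI.nil
      have hnil : IsNilpotent (Ideal.Quotient.mk I i) :=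
        ⟨n, by rw [← map_pow, Ideal.Quotient.eq_zero_iff_mem]; exact hn (Ideal.pow_mem_pow hi n)⟩
      refine h (isUnit_of_mul_isUnit_right (x := Ideal.Quotient.mk I q) ?_)
      have : Ideal.Quotient.mk I q * Ideal.Quotient.mk I p = 1 - Ideal.Quotient.mk I i := by
        rw [eq_sub_iff_add_eq, ← map_mul, ← map_add, hqi, map_one]
      rw [this]
      exact hnil.isUnit_one_sub
    · intro hp hu
      have h0 := hu.map (Ideal.Quotient.factor hI.le)
      rw [Ideal.Quotient.factor_mk, Ideal.Quotient.eq_zero_iff_mem.2 hp] at h0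
      have : Nontrivial (EntryRing 𝒪 ⧸ residualIdeal F) :=
        Ideal.Quotient.nontrivial_iff.2 (residualIdeal_ne_top F)
      exact not_isUnit_zero h0
  intro a b ha hb
  obtain ⟨p, rfl⟩ := Ideal.Quotient.mk_surjective a
  obtain ⟨q, rfl⟩ := Ideal.Quotient.mk_surjective b
  rw [mem_nonunits_iff, ← map_add, key]
  exact add_mem ((key p).1 ha) ((key q).1 hb)

/-- The quotient by an admissible ideal is an artinian test algebra. -/
theorem IsAdmissible.isArtinianTestAlgebra {I : Ideal (EntryRing 𝒪)} (hI : IsAdmissible F I)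
    [IsLocalRing (EntryRing 𝒪 ⧸ I)] : IsArtinianTestAlgebra 𝒪 (EntryRing 𝒪 ⧸ I) := by
  have := hI.finite
  let ε : EntryRing 𝒪 ⧸ I →+* ResidueField 𝒪 :=
    Ideal.Quotient.lift I (residualEntryHom F).toRingHom fun a ha => RingHom.mem_ker.1 (hI.le ha)
  refine ⟨⟨fun c hc => ?_⟩, fun y => ?_, inferInstance⟩
  · have h := hc.map ε
    rw [show ε (algebraMap 𝒪 (EntryRing 𝒪 ⧸ I) c) = residue 𝒪 c from
      (residualEntryHom F).commutes c] at h
    exact (residue_ne_zero_iff_isUnit c).1 h.ne_zero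
  · obtain ⟨x, rfl⟩ := residue_surjective y
    obtain ⟨p, rfl⟩ := Ideal.Quotient.mk_surjective x
    obtain ⟨c, hc⟩ := exists_sub_algebraMap_mem F p
    refine ⟨c, ((Ideal.Quotient.mk_eq_mk_iff_sub_mem _ _).2 (fun hu => ?_)).symm⟩
    have h1 : IsUnit (Ideal.Quotient.mk I (p - algebraMap 𝒪 _ c)) := by
      rw [map_sub]; exact hu
    have h2 := h1.map ε
    rw [show ε (Ideal.Quotient.mk I (p - algebraMap 𝒪 _ c)) =
      residualEntryHom F (p - algebraMap 𝒪 _ c) from rfl, RingHom.mem_ker.1 hc] at h2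
    exact not_isUnit_zero h2

/-- An admissible ideal carries a normalised deformation. -/
theorem IsAdmissible.exists_rep {I : Ideal (EntryRing 𝒪)} (hI : IsAdmissible F I)
    [IsLocalRing (EntryRing 𝒪 ⧸ I)] [IsLocalHom (algebraMap 𝒪 (EntryRing 𝒪 ⧸ I))] :
    ∃ (M : GQ →* M2 (EntryRing 𝒪 ⧸ I)), IsGood F M ∧
      ∀ p, entryHom M p = Ideal.Quotient.mk I p := by
  have hq : ∀ {S T : M2 (EntryRing 𝒪)}, (∀ i j, (S - T) i j ∈ I) →
      (Ideal.Quotient.mk I).mapMatrix S = (Ideal.Quotient.mk I).mapMatrix T := by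
    intro S T h
    ext i j
    exact (Ideal.Quotient.mk_eq_mk_iff_sub_mem _ _).2 (h i j)
  let M : GQ →* M2 (EntryRing 𝒪 ⧸ I) :=
    { toFun := fun g => (Ideal.Quotient.mk I).mapMatrix (tautMat g)
      map_one' := by rw [hq hI.one, map_one]
      map_mul' := fun g h => by rw [hq (hI.mul g h), map_mul] }
  have hev : ∀ p, entryHom M p = Ideal.Quotient.mk I p := fun p =>
    AlgHom.congr_fun (MvPolynomial.algHom_ext (f := entryHom (𝒪 := 𝒪) M)
      (g := Ideal.Quotient.mkₐ 𝒪 I) fun ⟨g, i, j⟩ => entryHom_X _ _ _ _) p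
  refine ⟨M, ⟨?_, fun g => ?_, ?_, ?_, ?_⟩, hev⟩
  · intro n
    obtain ⟨L, hL, h⟩ := hI.cont
    refine ⟨L, hL, fun σ hσ i j => ?_⟩
    have he : M σ = 1 := by
      show (Ideal.Quotient.mk I).mapMatrix (tautMat σ) = 1
      rw [hq (h σ hσ), map_one]
    rw [he, sub_self]
    exact zero_mem _
  · ext i j
    show residue _ (M g i j) = resMap _ (F.ρ0 g i j)
    obtain ⟨c, hc⟩ := residue_surjective (F.ρ0 g i j)
    rw [← hc, resMap_residue]
    refine (Ideal.Quotient.mk_eq_mk_iff_sub_mem _ _).2 fun hu => ?_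
    have : Nontrivial (EntryRing 𝒪 ⧸ residualIdeal F) :=
      Ideal.Quotient.nontrivial_iff.2 (residualIdeal_ne_top F)
    have hu' : IsUnit (Ideal.Quotient.mk I (MvPolynomial.X (g, i, j) - algebraMap 𝒪 _ c)) := by
      rw [map_sub]; exact hu
    have h2 := hu'.map (Ideal.Quotient.factor hI.le)
    rw [Ideal.Quotient.factor_mk, Ideal.Quotient.eq_zero_iff_mem.2] at h2
    · exact not_isUnit_zero h2
    · rw [residualIdeal, RingHom.mem_ker, map_sub, AlgHom.commutes, sub_eq_zero, residualEntryHom,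
        entryHom_X]
      exact hc.symm
  · rw [← entryHom_evalMat, Matrix.map_apply, hev, Ideal.Quotient.eq_zero_iff_mem.2 hI.x10]
  · rw [← entryHom_evalMat, Matrix.map_apply, hev, Ideal.Quotient.eq_zero_iff_mem.2 hI.y00]
  · rw [← entryHom_evalMat, Matrix.map_apply, hev, ← map_one (Ideal.Quotient.mk I)]
    exact (Ideal.Quotient.mk_eq_mk_iff_sub_mem _ _).2 hI.y10

end Fermat.Agent.Deform
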