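import Mathlib
import Fermat.Prelude.Def_GaloisRep_DeformationRingData
import Fermat.Agent.Deform.Admissible

/-!
# The deformations of a given type

The ideals of a deformation condition form a filtered family with bounded cotangent space, the
hypothesis of the completion.
-/

noncomputable section

namespace Fermat.Agent.Deform

open IsLocalRing GaloisRep

variable {𝒪 : Type} [CommRing 𝒪] [IsLocalRing 𝒪]
variable {ρbar : ResidualGaloisRep (ResidueField 𝒪)} (F : Frame ρbar)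
variable (𝒟 : ∀ ⦃A : Type⦄ [CommRing A] [IsLocalRing A] [Algebra 𝒪 A], GaloisRepAdic A → Prop)

/-- A matrix representation is of type `𝒟`. -/
def IsType {A : Type} [CommRing A] [IsLocalRing A] [Algebra 𝒪 A] (M : GQ →* M2 A) : Prop :=
  ∃ hM : IsContMat M, 𝒟 (ofMatrix M hM)

/-- The ideals of deformations of type `𝒟` to finite test algebras. -/
def typeIdeals : Set (Ideal (EntryRing 𝒪)) :=
  {I | IsAdmissible F I ∧ ∀ [IsLocalRing (EntryRing 𝒪 ⧸ I)] (M : GQ →* M2 (EntryRing 𝒪 ⧸ I)),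
    (∀ p, entryHom M p = Ideal.Quotient.mk I p) → IsType 𝒟 M}

variable {F 𝒟}

omit [IsLocalRing 𝒪] in
/-- Type `𝒟` is preserved by maps of test algebras. -/
theorem isType_map (h𝒟 : IsDeformationCondition 𝒪 𝒟) {A B : Type} [CommRing A] [IsLocalRing A]
    [Algebra 𝒪 A] [CommRing B] [IsLocalRing B] [Algebra 𝒪 B]
    (hA : IsArtinianTestAlgebra 𝒪 A) (hB : IsArtinianTestAlgebra 𝒪 B) (φ : A →ₐ[𝒪] B)
    {M : GQ →* M2 A} (hM : IsType 𝒟 M) : IsType 𝒟 (mapMat (φ : A →+* B) M) := by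
  obtain ⟨hc, hD⟩ := hM
  have := hA.isLocalHom
  have := hB.isLocalHom
  have hφ := isLocalHom_algHom hB.residue_surjective φ
  exact ⟨_, h𝒟.of_isEquiv hB (ofMatrix_baseChangeAlong (φ : A →+* B) hφ M hc)
    (h𝒟.baseChangeAlong hA hB φ hφ hD)⟩

omit [IsLocalRing 𝒪] in
/-- Type `𝒟` descends along injective maps of test algebras. -/
theorem isType_of_injective (h𝒟 : IsDeformationCondition 𝒪 𝒟) {A B : Type} [CommRing A]
    [IsLocalRing A] [Algebra 𝒪 A] [CommRing B] [IsLocalRing B] [Algebra 𝒪 B]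
    (hA : IsArtinianTestAlgebra 𝒪 A) (hB : IsArtinianTestAlgebra 𝒪 B) (φ : A →ₐ[𝒪] B)
    (hinj : Function.Injective φ)
    {M : GQ →* M2 A} (hc : IsContMat M) (hM : IsType 𝒟 (mapMat (φ : A →+* B) M)) : IsType 𝒟 M := by
  obtain ⟨hc', hD⟩ := hM
  have := hA.isLocalHom
  have := hB.isLocalHom
  have hφ := isLocalHom_algHom hB.residue_surjective φ
  obtain ⟨e⟩ := ofMatrix_baseChangeAlong (φ : A →+* B) hφ M hc
  exact ⟨hc, h𝒟.of_baseChangeAlong_injective hA hB φ hφ hinj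
    (h𝒟.of_isEquiv hB ⟨e.symm⟩ hD)⟩

omit [IsLocalRing 𝒪] in
/-- A map carrying one evaluation map to another carries one representation to the other. -/
theorem eq_mapMat {A B : Type} [CommRing A] [Algebra 𝒪 A] [CommRing B]
    [Algebra 𝒪 B] (φ : A →ₐ[𝒪] B) {M : GQ →* M2 A} {M' : GQ →* M2 B}
    (h : ∀ p : EntryRing 𝒪, φ (entryHom M p) = entryHom M' p) :
    mapMat (φ : A →+* B) M = M' :=
  MonoidHom.ext fun g => Matrix.ext fun i j => by simpa using h (MvPolynomial.X (g, i, j))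

variable [Finite (ResidueField 𝒪)]

/-- The kernel of a normalised deformation of type `𝒟` is an ideal of type `𝒟`. -/
theorem ker_mem_typeIdeals (h𝒟 : IsDeformationCondition 𝒪 𝒟) {A : Type} [CommRing A]
    [IsLocalRing A] [Algebra 𝒪 A] [IsLocalHom (algebraMap 𝒪 A)]
    (hA : IsArtinianTestAlgebra 𝒪 A) {M : GQ →* M2 A} (hM : IsGood F M) (hT : IsType 𝒟 M) :
    RingHom.ker (entryHom (𝒪 := 𝒪) M) ∈ typeIdeals F 𝒟 := by
  have hI := isAdmissible_ker F hA hM
  refine ⟨hI, ?_⟩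
  intro _ M' hM'
  have hQ := hI.isArtinianTestAlgebra
  have := hQ.isLocalHom
  obtain ⟨M₀, hM₀, hM₀'⟩ := hI.exists_rep
  have hEq : M' = M₀ := eq_of_entryHom_eq fun p => by rw [hM', hM₀']
  subst hEq
  let j := Ideal.kerLiftAlg (entryHom (𝒪 := 𝒪) M)
  refine isType_of_injective h𝒟 hQ hA j (Ideal.kerLiftAlg_injective _) hM₀.cont ?_
  have : mapMat (j : _ →+* A) M' = M := eq_mapMat j fun p => by
    rw [hM']; exact Ideal.kerLiftAlg_mk _ p
  rw [this]
  exact hT

omit [Finite (ResidueField 𝒪)] in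
/-- A deformation killing an ideal of type `𝒟` is of type `𝒟`. -/
theorem isType_of_mem (h𝒟 : IsDeformationCondition 𝒪 𝒟) {I : Ideal (EntryRing 𝒪)}
    (hI : I ∈ typeIdeals F 𝒟) {A : Type} [CommRing A]
    [IsLocalRing A] [Algebra 𝒪 A]
    (hA : IsArtinianTestAlgebra 𝒪 A) {M : GQ →* M2 A}
    (hle : ∀ p ∈ I, entryHom (𝒪 := 𝒪) M p = 0) : IsType 𝒟 M := by
  have := hI.1.isLocalRing
  have hQ := hI.1.isArtinianTestAlgebra
  have := hQ.isLocalHom
  obtain ⟨M₀, hM₀, hM₀'⟩ := hI.1.exists_rep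
  let j := Ideal.Quotient.liftₐ I (entryHom (𝒪 := 𝒪) M) hle
  have : mapMat (j : _ →+* A) M₀ = M := eq_mapMat j fun p => by rw [hM₀']; rfl
  rw [← this]
  exact isType_map h𝒟 hQ hA j (hI.2 M₀ hM₀')

omit [Finite (ResidueField 𝒪)] in
/-- The ideals of type `𝒟` are closed under intersection. -/
theorem inf_mem_typeIdeals (h𝒟 : IsDeformationCondition 𝒪 𝒟) {I J : Ideal (EntryRing 𝒪)}
    (hI : I ∈ typeIdeals F 𝒟) (hJ : J ∈ typeIdeals F 𝒟) : I ⊓ J ∈ typeIdeals F 𝒟 := by
  have hK := hI.1.inf F hJ.1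
  have hS := hI.1.mono F (sup_le hI.1.le hJ.1.le) (le_sup_left : I ≤ I ⊔ J)
  refine ⟨hK, ?_⟩
  intro _ M hM
  have hP := hK.isArtinianTestAlgebra
  have := hP.isLocalHom
  have := hI.1.isLocalRing
  have := hJ.1.isLocalRing
  have := hS.isLocalRing
  have hIA := hI.1.isArtinianTestAlgebra
  have hJA := hJ.1.isArtinianTestAlgebra
  have := hIA.isLocalHom
  have := hJA.isLocalHom
  obtain ⟨M₀, hM₀, hM₀'⟩ := hK.exists_rep
  have hEq : M = M₀ := eq_of_entryHom_eq fun p => by rw [hM, hM₀']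
  subst hEq
  let pA := Ideal.Quotient.factorₐ 𝒪 (inf_le_left : I ⊓ J ≤ I)
  let pB := Ideal.Quotient.factorₐ 𝒪 (inf_le_right : I ⊓ J ≤ J)
  let f := Ideal.Quotient.factorₐ 𝒪 (le_sup_left : I ≤ I ⊔ J)
  let g := Ideal.Quotient.factorₐ 𝒪 (le_sup_right : J ≤ I ⊔ J)
  have hpA := isLocalHom_algHom hIA.residue_surjective pA
  have hpB := isLocalHom_algHom hJA.residue_surjective pB
  obtain ⟨cA, hA⟩ : IsType 𝒟 (mapMat (pA : _ →+* EntryRing 𝒪 ⧸ I) M) := hI.2 _ fun p => by
    show entryHom (fun σ => (M σ).map pA) p = _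
    rw [← comp_entryHom, AlgHom.comp_apply, hM]
    rfl
  obtain ⟨cB, hB⟩ : IsType 𝒟 (mapMat (pB : _ →+* EntryRing 𝒪 ⧸ J) M) := hJ.2 _ fun p => by
    show entryHom (fun σ => (M σ).map pB) p = _
    rw [← comp_entryHom, AlgHom.comp_apply, hM]
    rfl
  obtain ⟨eA⟩ := ofMatrix_baseChangeAlong (pA : _ →+* EntryRing 𝒪 ⧸ I) hpA M hM₀.cont
  obtain ⟨eB⟩ := ofMatrix_baseChangeAlong (pB : _ →+* EntryRing 𝒪 ⧸ J) hpB M hM₀.cont
  refine ⟨hM₀.cont, h𝒟.of_fibreProduct hIA hJA hS.isArtinianTestAlgebra hP f g pA pB hpA hpB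
    ?_ ?_ ?_ (h𝒟.of_isEquiv hIA ⟨eA.symm⟩ hA) (h𝒟.of_isEquiv hJA ⟨eB.symm⟩ hB)⟩
  · refine AlgHom.ext fun x => ?_
    obtain ⟨p, rfl⟩ := Ideal.Quotient.mk_surjective x
    rfl
  · intro x y hxy
    obtain ⟨p, rfl⟩ := Ideal.Quotient.mk_surjective x
    obtain ⟨q, rfl⟩ := Ideal.Quotient.mk_surjective y
    simp only [pA, pB, Ideal.Quotient.factorₐ_apply, Prod.mk.injEq, Ideal.Quotient.factor_mk,
      Ideal.Quotient.mk_eq_mk_iff_sub_mem] at hxy
    exact (Ideal.Quotient.mk_eq_mk_iff_sub_mem _ _).2 ⟨hxy.1, hxy.2⟩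
  · intro a b hab
    obtain ⟨p, rfl⟩ := Ideal.Quotient.mk_surjective a
    obtain ⟨q, rfl⟩ := Ideal.Quotient.mk_surjective b
    simp only [f, g, Ideal.Quotient.factorₐ_apply, Ideal.Quotient.factor_mk,
      Ideal.Quotient.mk_eq_mk_iff_sub_mem] at hab
    obtain ⟨u, hu, v, hv, huv⟩ := Submodule.mem_sup.1 hab
    refine ⟨Ideal.Quotient.mk _ (p - u), ?_, ?_⟩
    · show Ideal.Quotient.mk I (p - u) = Ideal.Quotient.mk I p
      rw [map_sub, Ideal.Quotient.eq_zero_iff_mem.2 hu, sub_zero]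
    · show Ideal.Quotient.mk J (p - u) = Ideal.Quotient.mk J q
      rw [Ideal.Quotient.mk_eq_mk_iff_sub_mem]
      convert hv using 1
      linear_combination -huv

/-- The residual ideal is of type `𝒟`. -/
theorem residualIdeal_mem_typeIdeals (h𝒟 : IsDeformationCondition 𝒪 𝒟)
    (hbar : 𝒟 (GaloisRepAdic.ofResidualGaloisRep ρbar)) :
    residualIdeal F ∈ typeIdeals F 𝒟 := by
  have : IsLocalHom (algebraMap 𝒪 (ResidueField 𝒪)) :=
    ⟨fun c hc => (residue_ne_zero_iff_isUnit c).1 hc.ne_zero⟩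
  have hk : IsArtinianTestAlgebra 𝒪 (ResidueField 𝒪) := by
    refine ⟨inferInstance, fun y => ?_, inferInstance⟩
    obtain ⟨x, rfl⟩ := residue_surjective y
    obtain ⟨c, rfl⟩ := residue_surjective x
    exact ⟨c, rfl⟩
  let r := GaloisRepAdic.ofResidualGaloisRep ρbar
  let M := matOf r F.b0
  have hM0 : ∀ g, M g = F.ρ0 g := fun g => rfl
  have hev : ∀ x : GQ →₀ 𝒪, evalMat M x = evalMat F.ρ0 x := fun x => rfl
  have hM : IsGood F M := by
    refine ⟨isContMat_matOf r F.b0, fun g => ?_, ?_, ?_, ?_⟩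
    · ext i j
      obtain ⟨c, hc⟩ := residue_surjective (F.ρ0 g i j)
      show residue _ (M g i j) = resMap _ (F.ρ0 g i j)
      rw [hM0, ← hc, resMap_residue]
      rfl
    · rw [hev, show evalMat F.ρ0 F.x = _ from F.hx]; simp
    · rw [hev, show evalMat F.ρ0 F.y = _ from F.hy]; simp
    · rw [hev, show evalMat F.ρ0 F.y = _ from F.hy]; simp
  have hT : IsType 𝒟 M :=
    ⟨hM.cont, h𝒟.of_isEquiv hk (isEquiv_ofMatrix r F.b0 M hM.cont fun g => rfl) hbar⟩
  have hker : residualIdeal F = RingHom.ker (entryHom (𝒪 := 𝒪) M) := by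
    rw [residualIdeal, residualEntryHom,
      show (⇑M : GQ → M2 (ResidueField 𝒪)) = F.ρ0 from funext hM0]
  rw [hker]
  exact ker_mem_typeIdeals h𝒟 hk hM hT

section Tangent

/-- The algebra structure on the dual numbers used in the definition of the tangent space. -/
abbrev dualAlgebra (𝒪 : Type) [CommRing 𝒪] [IsLocalRing 𝒪] :
    Algebra 𝒪 (DualNumber (ResidueField 𝒪)) :=
  ((algebraMap (ResidueField 𝒪) (DualNumber (ResidueField 𝒪))).comp
    (algebraMap 𝒪 (ResidueField 𝒪))).toAlgebra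

attribute [local instance] dualAlgebra

omit [Finite (ResidueField 𝒪)] in
theorem algebraMap_dual (c : 𝒪) : algebraMap 𝒪 (DualNumber (ResidueField 𝒪)) c =
    TrivSqZeroExt.inl (residue 𝒪 c) := rfl

instance isLocalHom_dual : IsLocalHom (algebraMap 𝒪 (DualNumber (ResidueField 𝒪))) :=
  ⟨fun c hc => by
    rw [algebraMap_dual, TrivSqZeroExt.isUnit_inl_iff] at hc
    exact (residue_ne_zero_iff_isUnit c).1 hc.ne_zero⟩

/-- The dual numbers form a test algebra. -/
theorem isArtinianTestAlgebra_dual : IsArtinianTestAlgebra 𝒪 (DualNumber (ResidueField 𝒪)) := by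
  have : Finite (DualNumber (ResidueField 𝒪)) :=
    inferInstanceAs (Finite (ResidueField 𝒪 × ResidueField 𝒪))
  refine ⟨isLocalHom_dual, fun y => ?_, inferInstance⟩
  obtain ⟨x, rfl⟩ := residue_surjective y
  obtain ⟨c, hc⟩ := residue_surjective x.fst
  refine ⟨c, (Ideal.Quotient.mk_eq_mk_iff_sub_mem _ _).2 fun hu => ?_⟩
  have := TrivSqZeroExt.isUnit_iff_isUnit_fst.1 hu
  rw [TrivSqZeroExt.fst_sub, algebraMap_dual, TrivSqZeroExt.fst_inl, hc, sub_self] at this
  exact not_isUnit_zero this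

/-- Deformations to the dual numbers in normal form. -/
def TangentRep (F : Frame ρbar)
    (𝒟 : ∀ ⦃A : Type⦄ [CommRing A] [IsLocalRing A] [Algebra 𝒪 A], GaloisRepAdic A → Prop) :
    Type :=
  {M : GQ →* M2 (DualNumber (ResidueField 𝒪)) // IsGood F M ∧ IsType 𝒟 M}

omit [Finite (ResidueField 𝒪)] in
/-- There are finitely many tangent deformations. -/
theorem finite_tangentRep (hfin : TangentFinite 𝒪 ρbar 𝒟) : Finite (TangentRep F 𝒟) := by
  unfold TangentFinite at hfin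
  let algK : Algebra (ResidueField 𝒪) (ResidueField (DualNumber (ResidueField 𝒪))) :=
    ((IsLocalRing.residue (DualNumber (ResidueField 𝒪))).comp
      (algebraMap (ResidueField 𝒪) (DualNumber (ResidueField 𝒪)))).toAlgebra
  have hres : resMap (DualNumber (ResidueField 𝒪)) =
      algebraMap (ResidueField 𝒪) (ResidueField (DualNumber (ResidueField 𝒪))) := by
    refine RingHom.ext fun x => ?_
    obtain ⟨c, rfl⟩ := residue_surjective x
    rw [resMap_residue]
    rfl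
  have hmem : ∀ M : TangentRep F 𝒟, 𝒟 (ofMatrix M.1 M.2.1.cont) ∧
      (ofMatrix M.1 M.2.1.cont).residual.IsEquiv (ρbar.baseChangeAlong
        (algebraMap (ResidueField 𝒪) (ResidueField (DualNumber (ResidueField 𝒪))))) := by
    intro M
    refine ⟨M.2.2.choose_spec, ?_⟩
    have h := residual_isEquiv F M.2.1
    rwa [hres] at h
  refine @Finite.of_injective (TangentRep F 𝒟) _ hfin (fun M => Quotient.mk _
    ⟨ofMatrix M.1 M.2.1.cont, hmem M⟩) ?_
  intro M M' h
  exact Subtype.ext (IsGood.unique F M.2.1 M'.2.1 (Quotient.exact h))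

omit [Finite (ResidueField 𝒪)] in
/-- A cotangent vector outside the relations is seen by a map to the dual numbers. -/
theorem exists_dual_hom {I : Ideal (EntryRing 𝒪)} (hI : I ≤ residualIdeal F) {x : EntryRing 𝒪}
    (hx : x ∈ residualIdeal F)
    (hxW : x ∉ I ⊔ (maximalIdeal 𝒪).map (algebraMap 𝒪 (EntryRing 𝒪)) ⊔ residualIdeal F ^ 2) :
    ∃ β : EntryRing 𝒪 →ₐ[𝒪] DualNumber (ResidueField 𝒪), (∀ p ∈ I, β p = 0) ∧ β x ≠ 0 := by
  set W := I ⊔ (maximalIdeal 𝒪).map (algebraMap 𝒪 (EntryRing 𝒪)) ⊔ residualIdeal F ^ 2 with hW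
  have hWm : W ≤ residualIdeal F :=
    sup_le (sup_le hI (map_maximalIdeal_le F)) (Ideal.pow_le_self two_ne_zero)
  let sk : ResidueField 𝒪 →+* EntryRing 𝒪 ⧸ W :=
    Ideal.Quotient.lift (maximalIdeal 𝒪) (algebraMap 𝒪 (EntryRing 𝒪 ⧸ W)) fun c hc => by
      rw [IsScalarTower.algebraMap_apply 𝒪 (EntryRing 𝒪) (EntryRing 𝒪 ⧸ W),
        Ideal.Quotient.algebraMap_eq, Ideal.Quotient.eq_zero_iff_mem]
      exact (le_sup_right.trans le_sup_left :
        (maximalIdeal 𝒪).map (algebraMap 𝒪 (EntryRing 𝒪)) ≤ W) (Ideal.mem_map_of_mem _ hc)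
  let : Algebra (ResidueField 𝒪) (EntryRing 𝒪 ⧸ W) := sk.toAlgebra
  have hsk : ∀ c : 𝒪, sk (residue 𝒪 c) = Ideal.Quotient.mk W (algebraMap 𝒪 _ c) := fun c => rfl
  have hnotmem : Ideal.Quotient.mk W x ∉
      Submodule.span (ResidueField 𝒪) {(1 : EntryRing 𝒪 ⧸ W)} := by
    intro h
    obtain ⟨a, ha⟩ := Submodule.mem_span_singleton.1 h
    obtain ⟨c, rfl⟩ := residue_surjective a
    rw [Algebra.smul_def, RingHom.algebraMap_toAlgebra, hsk, mul_one] at ha
    have h1 : x - algebraMap 𝒪 _ c ∈ W := (Ideal.Quotient.mk_eq_mk_iff_sub_mem _ _).1 ha.symm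
    have h2 : algebraMap 𝒪 (EntryRing 𝒪) c ∈ residualIdeal F := by
      simpa using Ideal.sub_mem _ hx (hWm h1)
    have h3 : c ∈ maximalIdeal 𝒪 := fun hu =>
      residualIdeal_ne_top F (Ideal.eq_top_of_isUnit_mem _ h2 (hu.map _))
    have h4 : algebraMap 𝒪 (EntryRing 𝒪) c ∈ W :=
      (le_sup_right.trans le_sup_left :
        (maximalIdeal 𝒪).map (algebraMap 𝒪 (EntryRing 𝒪)) ≤ W) (Ideal.mem_map_of_mem _ h3)
    exact hxW (by simpa using add_mem h1 h4)
  obtain ⟨f, hfx, hf1⟩ := Submodule.exists_dual_map_eq_bot_of_notMem hnotmem inferInstance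
  have hf1' : f 1 = 0 := by
    have : f 1 ∈ (Submodule.span (ResidueField 𝒪) {(1 : EntryRing 𝒪 ⧸ W)}).map f :=
      Submodule.mem_map_of_mem (Submodule.subset_span rfl)
    rwa [hf1, Submodule.mem_bot] at this
  have hfc : ∀ c : 𝒪, f (Ideal.Quotient.mk W (algebraMap 𝒪 _ c)) = 0 := fun c => by
    rw [← hsk, show sk (residue 𝒪 c) = residue 𝒪 c • (1 : EntryRing 𝒪 ⧸ W) by
      rw [Algebra.smul_def, mul_one]; rfl, map_smul, hf1', smul_zero]
  have hmul : ∀ p q, f (Ideal.Quotient.mk W (p * q)) =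
      residualEntryHom F p * f (Ideal.Quotient.mk W q) +
        residualEntryHom F q * f (Ideal.Quotient.mk W p) := by
    intro p q
    obtain ⟨c, hc⟩ := exists_sub_algebraMap_mem F p
    obtain ⟨d, hd⟩ := exists_sub_algebraMap_mem F q
    have hc' : residualEntryHom F p = residue 𝒪 c := by
      rw [residualIdeal, RingHom.mem_ker, map_sub, AlgHom.commutes, sub_eq_zero] at hc
      exact hc
    have hd' : residualEntryHom F q = residue 𝒪 d := by
      rw [residualIdeal, RingHom.mem_ker, map_sub, AlgHom.commutes, sub_eq_zero] at hd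
      exact hd
    have huv : Ideal.Quotient.mk W ((p - algebraMap 𝒪 _ c) * (q - algebraMap 𝒪 _ d)) = 0 :=
      Ideal.Quotient.eq_zero_iff_mem.2 ((le_sup_right : residualIdeal F ^ 2 ≤ W)
        (by rw [pow_two]; exact Ideal.mul_mem_mul hc hd))
    have heq : Ideal.Quotient.mk W (p * q) = residue 𝒪 c • Ideal.Quotient.mk W q +
        residue 𝒪 d • Ideal.Quotient.mk W p - Ideal.Quotient.mk W (algebraMap 𝒪 _ (c * d)) := by
      simp only [Algebra.smul_def, RingHom.algebraMap_toAlgebra, hsk, map_mul]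
      simp only [map_mul, map_sub] at huv
      linear_combination huv
    rw [heq, map_sub, map_add, map_smul, map_smul, hfc, sub_zero, hc', hd', smul_eq_mul,
      smul_eq_mul]
  let β : EntryRing 𝒪 →ₐ[𝒪] DualNumber (ResidueField 𝒪) :=
    { toFun := fun p => TrivSqZeroExt.inl (residualEntryHom F p) +
        TrivSqZeroExt.inr (f (Ideal.Quotient.mk W p))
      map_one' := by simp [hf1']
      map_mul' := fun p q => by
        refine TrivSqZeroExt.ext ?_ ?_
        · simp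
        · simp only [TrivSqZeroExt.snd_add, TrivSqZeroExt.snd_inl, TrivSqZeroExt.snd_inr, zero_add,
            TrivSqZeroExt.snd_mul, TrivSqZeroExt.fst_add, TrivSqZeroExt.fst_inl,
            TrivSqZeroExt.fst_inr, add_zero, hmul, smul_eq_mul, MulOpposite.smul_eq_mul_unop,
            MulOpposite.unop_op]
          ring
      map_zero' := by simp
      map_add' := fun p q => by
        refine TrivSqZeroExt.ext ?_ ?_ <;> simp
      commutes' := fun c => by
        refine TrivSqZeroExt.ext ?_ ?_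
        · simp only [TrivSqZeroExt.fst_add, TrivSqZeroExt.fst_inl, TrivSqZeroExt.fst_inr, add_zero,
            algebraMap_dual, AlgHom.commutes]
          rfl
        · simp only [TrivSqZeroExt.snd_add, TrivSqZeroExt.snd_inl, TrivSqZeroExt.snd_inr, zero_add,
            algebraMap_dual, hfc] }
  have hker : ∀ p ∈ I, β p = 0 := fun p hp => by
    refine TrivSqZeroExt.ext ?_ ?_
    · simpa [β] using RingHom.mem_ker.1 (hI hp)
    · have : Ideal.Quotient.mk W p = 0 := Ideal.Quotient.eq_zero_iff_mem.2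
        ((le_sup_left.trans le_sup_left : I ≤ W) hp)
      simp [β, this]
  refine ⟨β, hker, fun h => ?_⟩
  have := congrArg TrivSqZeroExt.snd h
  simp only [β, AlgHom.coe_mk, RingHom.coe_mk, MonoidHom.coe_mk, OneHom.coe_mk,
    TrivSqZeroExt.snd_add, TrivSqZeroExt.snd_inl, TrivSqZeroExt.snd_inr, zero_add,
    TrivSqZeroExt.snd_zero] at this
  exact hfx this

/-- One ideal of type `𝒟` bounds all of them to first order. -/
theorem exists_tangent_bound (h𝒟 : IsDeformationCondition 𝒪 𝒟)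
    (hbar : 𝒟 (GaloisRepAdic.ofResidualGaloisRep ρbar))
    (hfin : TangentFinite 𝒪 ρbar 𝒟) :
    ∃ I0 ∈ typeIdeals F 𝒟, ∀ I ∈ typeIdeals F 𝒟,
      I0 ≤ I ⊔ (maximalIdeal 𝒪).map (algebraMap 𝒪 (EntryRing 𝒪)) ⊔ residualIdeal F ^ 2 := by
  classical
  have := finite_tangentRep (F := F) hfin
  have : Fintype (TangentRep F 𝒟) := Fintype.ofFinite _
  refine ⟨residualIdeal F ⊓
    Finset.univ.inf fun M : TangentRep F 𝒟 => RingHom.ker (entryHom (𝒪 := 𝒪) M.1), ?_, ?_⟩
  · have key : ∀ s : Finset (TangentRep F 𝒟), residualIdeal F ⊓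
        s.inf (fun M : TangentRep F 𝒟 => RingHom.ker (entryHom (𝒪 := 𝒪) M.1)) ∈ typeIdeals F 𝒟 := by
      intro s
      induction s using Finset.induction_on with
      | empty => simpa using residualIdeal_mem_typeIdeals h𝒟 hbar
      | insert M s _ ih =>
        rw [Finset.inf_insert, inf_left_comm]
        exact inf_mem_typeIdeals h𝒟
          (ker_mem_typeIdeals h𝒟 isArtinianTestAlgebra_dual M.2.1 M.2.2) ih
    exact key _
  intro I hI x hx
  by_contra hxW
  obtain ⟨β, hker, hne⟩ := exists_dual_hom hI.1.le hx.1 hxW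
  have := hI.1.isLocalRing
  have hQ := hI.1.isArtinianTestAlgebra
  have := hQ.isLocalHom
  obtain ⟨M₀, hM₀, hM₀'⟩ := hI.1.exists_rep
  let j := Ideal.Quotient.liftₐ I β hker
  have hjloc := isLocalHom_algHom isArtinianTestAlgebra_dual.residue_surjective j
  have hT := isType_map h𝒟 hQ isArtinianTestAlgebra_dual j (hI.2 M₀ hM₀')
  have hG := hM₀.map F j hjloc
  have hxM : entryHom (𝒪 := 𝒪)
      (mapMat (j : _ →+* DualNumber (ResidueField 𝒪)) M₀) x = 0 :=
    RingHom.mem_ker.1 ((Finset.inf_le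
      (f := fun M : TangentRep F 𝒟 => RingHom.ker (entryHom (𝒪 := 𝒪) M.1))
      (Finset.mem_univ (α := TangentRep F 𝒟) ⟨_, hG, hT⟩)) hx.2)
  refine hne ?_
  rw [← hxM]
  show β x = entryHom (fun σ => (M₀ σ).map j) x
  rw [← comp_entryHom, AlgHom.comp_apply, hM₀']
  rfl

end Tangent

end Fermat.Agent.Deform
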