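import Mathlib
import Fermat.Prelude.Def_GaloisRep_DeformationRingData
import Fermat.Agent.Deform.Universal

/-!
# The universal deformation ring

The completion represents the deformations of a given type, so the deformation ring data exist.
-/

noncomputable section

namespace Fermat.Agent.Deform

open IsLocalRing GaloisRep

variable {𝒪 : Type} [CommRing 𝒪] [IsLocalRing 𝒪]
variable {ρbar : ResidualGaloisRep (ResidueField 𝒪)} {F : Frame ρbar}
variable {𝒟 : ∀ ⦃A : Type⦄ [CommRing A] [IsLocalRing A] [Algebra 𝒪 A], GaloisRepAdic A → Prop}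

/-- The completion along the ideals of deformations of type `𝒟` exists. -/
theorem exists_completion [Finite (ResidueField 𝒪)] [IsNoetherianRing 𝒪]
    (h𝒟 : IsDeformationCondition 𝒪 𝒟)
    (hbar : 𝒟 (GaloisRepAdic.ofResidualGaloisRep ρbar)) (hfin : TangentFinite 𝒪 ρbar 𝒟) :
    Nonempty (FamilyCompletion 𝒪 (EntryRing 𝒪) (residualIdeal F) (typeIdeals F 𝒟)) := by
  classical
  obtain ⟨I0, hI0, hbound⟩ := exists_tangent_bound (F := F) h𝒟 hbar hfin
  have := hI0.1.finite
  let Y : Set (EntryRing 𝒪 ⧸ I0) :=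
    {y | y ∈ (residualIdeal F).map (Ideal.Quotient.mk I0)}
  let S : Finset (EntryRing 𝒪) := Y.toFinite.toFinset.image Quotient.out
  refine exists_familyCompletion (residualIdeal F) (residualIdeal_ne_top F)
    (map_maximalIdeal_le F) (exists_sub_algebraMap_mem F) (typeIdeals F 𝒟) ⟨I0, hI0⟩
    (fun I hI J hJ => inf_mem_typeIdeals h𝒟 hI hJ) (fun I hI => hI.1.le) (fun I hI => hI.1.nil)
    S ?_ ?_
  · intro s hs
    obtain ⟨y, hy, rfl⟩ := Finset.mem_image.1 hs
    rw [Set.Finite.mem_toFinset] at hy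
    exact (Ideal.mem_quotient_iff_mem hI0.1.le).1
      (show Ideal.Quotient.mk I0 (Quotient.out y) ∈ _ by rw [Ideal.Quotient.mk_out]; exact hy)
  · intro I hI p hp
    have h1 : p ∈ I0 ⊔ Ideal.span (S : Set (EntryRing 𝒪)) := by
      set y := Ideal.Quotient.mk I0 p with hy
      have hyY : y ∈ Y := Ideal.mem_map_of_mem _ hp
      have hs : Quotient.out y ∈ Ideal.span (S : Set (EntryRing 𝒪)) :=
        Ideal.subset_span (Finset.mem_image.2 ⟨y, (Set.Finite.mem_toFinset _).2 hyY, rfl⟩)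
      have hd : p - Quotient.out y ∈ I0 := by
        rw [← Ideal.Quotient.mk_eq_mk_iff_sub_mem, Ideal.Quotient.mk_out]
      have := Ideal.add_mem _ (Ideal.mem_sup_left hd : _ ∈ I0 ⊔ Ideal.span (S : Set _))
        (Ideal.mem_sup_right hs)
      simpa using this
    refine (sup_le ?_ ?_ : I0 ⊔ Ideal.span (S : Set (EntryRing 𝒪)) ≤ _) h1
    · exact (hbound I hI).trans (sup_le (sup_le
        ((le_sup_left.trans le_sup_left).trans le_sup_left) (le_sup_right.trans le_sup_left))
        le_sup_right)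
    · exact (le_sup_right.trans le_sup_left).trans le_sup_left

variable (C : FamilyCompletion 𝒪 (EntryRing 𝒪) (residualIdeal F) (typeIdeals F 𝒟))

/-- A relation in all the ideals of type `𝒟` vanishes in the completion. -/
theorem map_relation_eq_zero {r : EntryRing 𝒪} (h : ∀ I ∈ typeIdeals F 𝒟, r ∈ I) : C.τ r = 0 := by
  refine IsHausdorff.haus (I := maximalIdeal C.R) inferInstance _ fun n => ?_
  rw [SModEq.zero, smul_eq_mul, Ideal.mul_top]
  obtain ⟨I, hI, hIn⟩ := C.exists_le n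
  exact hIn r (h I hI)

theorem map_matrix_eq {S T : M2 (EntryRing 𝒪)}
    (h : ∀ I ∈ typeIdeals F 𝒟, ∀ i j, (S - T) i j ∈ I) :
    (C.τ : EntryRing 𝒪 →+* C.R).mapMatrix S = (C.τ : EntryRing 𝒪 →+* C.R).mapMatrix T := by
  ext i j
  refine sub_eq_zero.1 ((map_sub C.τ _ _).symm.trans ?_)
  exact map_relation_eq_zero C fun I hI => h I hI i j

/-- The universal matrices. -/
def univMat : GQ →* M2 C.R where
  toFun g := (C.τ : EntryRing 𝒪 →+* C.R).mapMatrix (tautMat g)
  map_one' := by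
    rw [map_matrix_eq C (T := 1) fun I hI => hI.1.one, map_one]
  map_mul' g h := by
    rw [map_matrix_eq C (T := tautMat g * tautMat h) fun I hI => hI.1.mul g h, map_mul]

/-- Evaluation at the universal matrices is the structure map of the completion. -/
theorem entryHom_univMat : entryHom (univMat C) = C.τ :=
  MvPolynomial.algHom_ext fun ⟨_, _, _⟩ => entryHom_X _ _ _ _

/-- The universal matrices are normalised. -/
theorem isGood_univMat : IsGood F (univMat C) := by
  refine ⟨fun n => ?_, fun g => ?_, ?_, ?_, ?_⟩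
  · obtain ⟨I, hI, hIn⟩ := C.exists_le n
    obtain ⟨L, hL, h⟩ := hI.1.cont
    refine ⟨L, hL, fun σ hσ i j => ?_⟩
    have h1 := hIn _ (h σ hσ i j)
    have h2 : C.τ ((tautMat σ - 1 : M2 (EntryRing 𝒪)) i j) =
        univMat C σ i j - (1 : M2 C.R) i j := by
      rw [Matrix.sub_apply, map_sub, Matrix.one_apply, Matrix.one_apply]
      split <;> simp <;> rfl
    rwa [h2] at h1
  · ext i j
    obtain ⟨c, hc⟩ := residue_surjective (F.ρ0 g i j)
    show residue C.R (univMat C g i j) = resMap C.R (F.ρ0 g i j)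
    rw [← hc, resMap_residue]
    refine (Ideal.Quotient.mk_eq_mk_iff_sub_mem _ _).2 ?_
    rw [← C.τ.commutes]
    show C.τ (MvPolynomial.X (g, i, j)) - _ ∈ _
    rw [← map_sub, C.mem_iff, residualIdeal, RingHom.mem_ker, map_sub, AlgHom.commutes,
      residualEntryHom, entryHom_X, sub_eq_zero]
    exact hc.symm
  · rw [← entryHom_evalMat, Matrix.map_apply, entryHom_univMat]
    exact map_relation_eq_zero C fun I hI => hI.1.x10
  · rw [← entryHom_evalMat, Matrix.map_apply, entryHom_univMat]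
    exact map_relation_eq_zero C fun I hI => hI.1.y00
  · rw [← entryHom_evalMat, Matrix.map_apply, entryHom_univMat, ← sub_eq_zero, ← map_one C.τ,
      ← map_sub]
    exact map_relation_eq_zero C fun I hI => hI.1.y10

/-- The universal deformation is of type `𝒟`. -/
theorem isType_univMat (h𝒟 : IsDeformationCondition 𝒪 𝒟) :
    𝒟 (ofMatrix (univMat C) (isGood_univMat C).cont) := by
  refine (h𝒟.iff_forall_surjective C.instIsLocalHom C.residue_surjective _).2 ?_
  intro B _ _ _ hB q hq _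
  have := hB.isArtinian
  have := hB.isLocalHom
  obtain ⟨n, hn⟩ := (isArtinianRing_iff_isNilpotent_maximalIdeal B).mp inferInstance
  obtain ⟨I, hI, hIn⟩ := C.exists_le n
  have hT : IsType 𝒟 (mapMat (q : C.R →+* B) (univMat C)) := by
    refine isType_of_mem h𝒟 hI hB fun p hp => ?_
    show entryHom (fun σ => (univMat C σ).map q) p = 0
    rw [← comp_entryHom, AlgHom.comp_apply, entryHom_univMat]
    have h1 : q (C.τ p) ∈ (maximalIdeal C.R ^ n).map (q : C.R →+* B) :=
      Ideal.mem_map_of_mem (q : C.R →+* B) (hIn p hp)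
    rw [Ideal.map_pow] at h1
    have h2 := Ideal.pow_right_mono (((IsLocalRing.local_hom_TFAE _).out 0 2).mp hq) n h1
    rwa [hn, Ideal.zero_eq_bot, Submodule.mem_bot] at h2
  obtain ⟨hc, hD⟩ := hT
  obtain ⟨e⟩ := ofMatrix_baseChangeAlong (q : C.R →+* B) hq (univMat C) (isGood_univMat C).cont
  exact h𝒟.of_isEquiv hB ⟨e.symm⟩ hD

variable [Finite (ResidueField 𝒪)]

/-- The quotients of a complete local algebra with residue field that of `𝒪` by the powers of its
maximal ideal are test algebras. -/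
theorem isArtinianTestAlgebra_quotient_pow {A : Type} [CommRing A] [IsLocalRing A]
    [IsNoetherianRing A] [Algebra 𝒪 A] [IsLocalHom (algebraMap 𝒪 A)]
    (hA : Function.Surjective (residue A ∘ algebraMap 𝒪 A)) (n : ℕ)
    [IsLocalRing (A ⧸ maximalIdeal A ^ n)] :
    IsArtinianTestAlgebra 𝒪 (A ⧸ maximalIdeal A ^ n) := by
  let q := Ideal.Quotient.mkₐ 𝒪 (maximalIdeal A ^ n)
  have hq : IsLocalHom (q : A →+* A ⧸ maximalIdeal A ^ n) :=
    IsLocalHom.of_surjective _ Ideal.Quotient.mk_surjective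
  have : IsLocalHom (algebraMap 𝒪 (A ⧸ maximalIdeal A ^ n)) :=
    ⟨fun c hc => by
      have := hq
      refine IsUnit.of_map (algebraMap 𝒪 A) c
        (IsUnit.of_map (q : A →+* A ⧸ maximalIdeal A ^ n) _ ?_)
      rwa [show (q : A →+* _) (algebraMap 𝒪 A c) =
        algebraMap 𝒪 (A ⧸ maximalIdeal A ^ n) c from q.commutes c]⟩
  have : Finite (A ⧸ maximalIdeal A) := finite_residueField_of_surjective hA
  have : Finite (A ⧸ maximalIdeal A ^ n) :=
    Ideal.finite_quotient_pow (IsNoetherian.noetherian _) n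
  refine ⟨inferInstance, fun y => ?_, inferInstance⟩
  obtain ⟨x, rfl⟩ := residue_surjective y
  obtain ⟨a, rfl⟩ := Ideal.Quotient.mk_surjective x
  obtain ⟨c, hc⟩ := hA (residue A a)
  refine ⟨c, ?_⟩
  have hd : algebraMap 𝒪 A c - a ∈ maximalIdeal A :=
    (Ideal.Quotient.mk_eq_mk_iff_sub_mem _ _).1 hc
  refine (Ideal.Quotient.mk_eq_mk_iff_sub_mem _ _).2 fun hu => hd ?_
  have := hq
  refine IsUnit.of_map (q : A →+* A ⧸ maximalIdeal A ^ n) _ ?_
  show IsUnit (Ideal.Quotient.mk _ (algebraMap 𝒪 A c - a))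
  rw [map_sub]; exact hu

/-- **The universal property.** -/
theorem exists_unique_hom (h𝒟 : IsDeformationCondition 𝒪 𝒟) (A : Type) [CommRing A]
    [IsLocalRing A] [IsNoetherianRing A] [IsAdicComplete (maximalIdeal A) A] [Algebra 𝒪 A]
    [IsLocalHom (algebraMap 𝒪 A)] (hA : Function.Surjective (residue A ∘ algebraMap 𝒪 A))
    (ρA : GaloisRepAdic A) (hD : 𝒟 ρA)
    (hres : ρA.residual.IsEquiv (ρbar.baseChangeAlong (resMap A))) :
    ∃! φ : C.R →ₐ[𝒪] A, ∃ hφ : IsLocalHom (φ : C.R →+* A),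
      ((ofMatrix (univMat C) (isGood_univMat C).cont).baseChangeAlong (φ : C.R →+* A) hφ).IsEquiv
        ρA := by
  obtain ⟨M, hM, ⟨eM⟩⟩ := exists_good F ρA hres
  have hlevel : ∀ n : ℕ, ∃ N, ∀ p, C.τ p ∈ maximalIdeal C.R ^ N →
      entryHom (𝒪 := 𝒪) M p ∈ maximalIdeal A ^ n := by
    intro n
    rcases Nat.eq_zero_or_pos n with rfl | hn
    · exact ⟨0, fun p _ => by simp⟩
    have : Nontrivial (A ⧸ maximalIdeal A ^ n) := Ideal.Quotient.nontrivial_iff.2 fun h =>
      (maximalIdeal.isMaximal A).ne_top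
        (top_le_iff.1 (h ▸ Ideal.pow_le_self (Nat.pos_iff_ne_zero.1 hn)))
    have : IsLocalRing (A ⧸ maximalIdeal A ^ n) :=
      IsLocalRing.of_surjective' _ Ideal.Quotient.mk_surjective
    let q := Ideal.Quotient.mkₐ 𝒪 (maximalIdeal A ^ n)
    have hq : IsLocalHom (q : A →+* A ⧸ maximalIdeal A ^ n) :=
      IsLocalHom.of_surjective _ Ideal.Quotient.mk_surjective
    have hQ := isArtinianTestAlgebra_quotient_pow hA n
    have := hQ.isLocalHom
    have hT : IsType 𝒟 (mapMat (q : A →+* A ⧸ maximalIdeal A ^ n) M) := by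
      obtain ⟨e⟩ := ofMatrix_baseChangeAlong (q : A →+* A ⧸ maximalIdeal A ^ n) hq M hM.cont
      exact ⟨_, h𝒟.of_isEquiv hQ ⟨(eM.baseChangeAlong _ hq).trans e⟩
        ((h𝒟.iff_forall_surjective inferInstance hA ρA).1 hD hQ q hq
          Ideal.Quotient.mk_surjective)⟩
    have hmem := ker_mem_typeIdeals h𝒟 hQ (hM.map F q hq) hT
    obtain ⟨N, hN⟩ := C.le_comap _ hmem
    refine ⟨N, fun p hp => ?_⟩
    have h1 := RingHom.mem_ker.1 (hN p hp)
    have h2 : entryHom (𝒪 := 𝒪) (fun σ => (M σ).map q) p = 0 := h1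
    rw [← comp_entryHom, AlgHom.comp_apply] at h2
    exact Ideal.Quotient.eq_zero_iff_mem.1 h2
  choose N hN using hlevel
  let π : ∀ n, EntryRing 𝒪 →ₐ[𝒪] C.R ⧸ maximalIdeal C.R ^ N n := fun n =>
    (Ideal.Quotient.mkₐ 𝒪 _).comp C.τ
  have hπ : ∀ n, Function.Surjective (π n) := fun n y => by
    obtain ⟨x, rfl⟩ := Ideal.Quotient.mk_surjective y
    obtain ⟨p, hp⟩ := C.dense (N n) x
    exact ⟨p, ((Ideal.Quotient.mk_eq_mk_iff_sub_mem _ _).2 hp).symm⟩
  have hker : ∀ n, RingHom.ker (π n).toRingHom ≤ RingHom.ker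
      ((Ideal.Quotient.mkₐ 𝒪 (maximalIdeal A ^ n)).comp (entryHom M)).toRingHom :=
    fun n p hp => Ideal.Quotient.eq_zero_iff_mem.2
      (hN n p (Ideal.Quotient.eq_zero_iff_mem.1 hp))
  let f : ∀ n, C.R →ₐ[𝒪] A ⧸ maximalIdeal A ^ n := fun n =>
    (AlgHom.liftOfSurjective (π n) (hπ n) _ (hker n)).comp
      (Ideal.Quotient.mkₐ 𝒪 (maximalIdeal C.R ^ N n))
  have hf : ∀ n x p, x - C.τ p ∈ maximalIdeal C.R ^ N n →
      f n x = Ideal.Quotient.mk _ (entryHom M p) := by
    intro n x p hxp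
    have : Ideal.Quotient.mkₐ 𝒪 (maximalIdeal C.R ^ N n) x = π n p :=
      (Ideal.Quotient.mk_eq_mk_iff_sub_mem _ _).2 hxp
    simp only [f, AlgHom.comp_apply]
    rw [this, AlgHom.liftOfSurjective_apply]
    rfl
  have hcompat : ∀ {m n : ℕ} (hle : m ≤ n),
      (Ideal.Quotient.factorₐ 𝒪 (Ideal.pow_le_pow_right hle)).comp (f n) = f m := by
    intro m n hle
    refine AlgHom.ext fun x => ?_
    obtain ⟨p, hp⟩ := C.dense (max (N m) (N n)) x
    rw [AlgHom.comp_apply, hf n x p (Ideal.pow_le_pow_right (le_max_right _ _) hp),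
      hf m x p (Ideal.pow_le_pow_right (le_max_left _ _) hp)]
    exact Ideal.Quotient.factor_mk (Ideal.pow_le_pow_right hle) _
  let φ := IsAdicComplete.liftAlgHom (maximalIdeal A) f hcompat
  have hφτ : φ.comp C.τ = entryHom M := by
    refine IsAdicComplete.algHom_ext (maximalIdeal A) fun n => AlgHom.ext fun p => ?_
    show Ideal.Quotient.mk _ (φ (C.τ p)) = _
    rw [IsAdicComplete.mk_liftAlgHom, hf n _ p (by simp)]
    rfl
  have hmap : mapMat (φ : C.R →+* A) (univMat C) = M := eq_mapMat φ fun p => by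
    rw [entryHom_univMat]
    exact AlgHom.congr_fun hφτ p
  refine ⟨φ, ⟨isLocalHom_algHom hA φ, ?_⟩, ?_⟩
  · obtain ⟨e⟩ := ofMatrix_baseChangeAlong (φ : C.R →+* A) (isLocalHom_algHom hA φ) (univMat C)
      (isGood_univMat C).cont
    obtain ⟨e'⟩ := isEquiv_of_intertwine (M' := M)
      (isContMat_mapMat (φ : C.R →+* A) (isLocalHom_algHom hA φ) (isGood_univMat C).cont) hM.cont 1
      (fun g => by rw [hmap]; simp)
    exact ⟨(e.trans e').trans eM.symm⟩
  · rintro ψ ⟨hψ, ⟨eψ⟩⟩
    obtain ⟨e⟩ := ofMatrix_baseChangeAlong (ψ : C.R →+* A) hψ (univMat C) (isGood_univMat C).cont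
    have hG := (isGood_univMat C).map F ψ hψ
    have hEq := hG.unique F hM ⟨(e.symm.trans eψ).trans eM⟩
    have hψτ : ψ.comp C.τ = entryHom M := by
      rw [← hEq, ← entryHom_univMat C, comp_entryHom]
      rfl
    refine IsAdicComplete.algHom_ext (maximalIdeal A) fun n => AlgHom.ext fun x => ?_
    show Ideal.Quotient.mk _ (ψ x) = Ideal.Quotient.mk _ (φ x)
    obtain ⟨p, hp⟩ := C.dense (max n (N n)) x
    rw [IsAdicComplete.mk_liftAlgHom,
      hf n x p (Ideal.pow_le_pow_right (le_max_right _ _) hp), Ideal.Quotient.mk_eq_mk_iff_sub_mem,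
      ← AlgHom.congr_fun hψτ p, AlgHom.comp_apply, ← map_sub]
    have h1 : ψ (x - C.τ p) ∈ (maximalIdeal C.R ^ n).map (ψ : C.R →+* A) :=
      Ideal.mem_map_of_mem (ψ : C.R →+* A) (Ideal.pow_le_pow_right (le_max_left _ _) hp)
    rw [Ideal.map_pow] at h1
    exact Ideal.pow_right_mono (((IsLocalRing.local_hom_TFAE _).out 0 2).mp hψ) n h1

end Fermat.Agent.Deform
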